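/-
S56 / FLAT / block FM-C (architect helper116, proved by helper80): restriction of a model along an
injective equivariant map; subobjects of flat modules are flat.
-/
import Fermat.Agent.S56.Flat.Defs

set_option autoImplicit false
set_option linter.unusedSectionVars false

namespace Fermat.Agent.S56.Flat

open Fermat.Agent.Lib.InertiaField

variable {A : ValuationSubring Qb} {p : ℕ}
variable {W : Type} [AddCommGroup W] [DistribMulAction ↥(Iner A) W]

/-- restriction of functions along `j`, as a ring homomorphism -/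
private noncomputable def subRes {W' : Type} (j : W' → W) : (W → Qb) →+* (W' → Qb) :=
  RingHom.pi fun w' => Pi.evalRingHom (fun _ : W => Qb) (j w')

private theorem subRes_apply {W' : Type} (j : W' → W) (f : W → Qb) (w' : W') :
    subRes j f w' = f (j w') := rfl

/-- restriction of a model along an injective equivariant map -/
theorem Model.exists_comap {W' : Type} [AddCommGroup W'] [DistribMulAction ↥(Iner A) W']
    (M : Model A W) (j : W' →+[↥(Iner A)] W) (hj : Function.Injective j) :
    ∃ M' : Model A W', ∀ f' : W' → Qb, f' ∈ M'.carrier ↔ ∃ f ∈ M.carrier, ∀ w', f' w' = f (j w') := by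
  have hmem : ∀ f' : W' → Qb, f' ∈ Subring.map (subRes (j : W' → W)) M.carrier ↔
      ∃ f ∈ M.carrier, ∀ w', f' w' = f (j w') := by
    intro f'
    rw [Subring.mem_map]
    constructor
    · rintro ⟨f, hf, rfl⟩
      exact ⟨f, hf, fun _ => rfl⟩
    · rintro ⟨f, hf, h⟩
      exact ⟨f, hf, funext fun w' => (h w').symm⟩
  refine ⟨{ carrier := Subring.map (subRes (j : W' → W)) M.carrier
            int := ?_, equiv := ?_, const := ?_, fg := ?_, sep := ?_, comul := ?_ }, hmem⟩
  · intro f' hf' w'
    obtain ⟨f, hf, h⟩ := (hmem f').1 hf'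
    rw [h]
    exact M.int f hf _
  · intro f' hf' σ w'
    obtain ⟨f, hf, h⟩ := (hmem f').1 hf'
    rw [h, h, map_smul]
    exact M.equiv f hf σ _
  · intro a ha
    exact (hmem _).2 ⟨fun _ => a, M.const a ha, fun _ => rfl⟩
  · obtain ⟨n, F, hF, hspan⟩ := M.fg
    refine ⟨n, fun i w' => F i (j w'), fun i => (hmem _).2 ⟨F i, hF i, fun _ => rfl⟩, ?_⟩
    intro f' hf'
    obtain ⟨f, hf, h⟩ := (hmem f').1 hf'
    obtain ⟨a, ha, hfa⟩ := hspan f hf
    exact ⟨a, ha, fun w' => by rw [h, hfa]⟩
  · intro w₁ w₂ h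
    apply hj
    apply M.sep
    intro f hf
    exact h (fun w' => f (j w')) ((hmem _).2 ⟨f, hf, fun _ => rfl⟩)
  · intro f' hf'
    obtain ⟨f, hf, h⟩ := (hmem f').1 hf'
    obtain ⟨n, g, k, hg, hk, hgk⟩ := M.comul f hf
    refine ⟨n, fun i w' => g i (j w'), fun i w' => k i (j w'),
      fun i => (hmem _).2 ⟨g i, hg i, fun _ => rfl⟩,
      fun i => (hmem _).2 ⟨k i, hk i, fun _ => rfl⟩, ?_⟩
    intro w₁ w₂
    rw [h, map_add, hgk]

/-- (SQ) subobjects (and isomorphic copies). -/
theorem FlatLoc.of_injective {W' : Type} [AddCommGroup W'] [DistribMulAction ↥(Iner A) W']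
    (h : FlatLoc A W) (j : W' →+[↥(Iner A)] W) (hj : Function.Injective j) : FlatLoc A W' := by
  obtain ⟨M⟩ := h
  obtain ⟨M', -⟩ := M.exists_comap j hj
  exact ⟨M'⟩

end Fermat.Agent.S56.Flat
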