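/-
S56 / FLAT / FM-E (helper234): the product of two models.
-/
import Fermat.Agent.S56.Flat.Defs

set_option autoImplicit false

namespace Fermat.Agent.S56.Flat

open Fermat.Agent.Lib.InertiaField

variable {A : ValuationSubring Qb} {p : ℕ}
variable {W : Type} [AddCommGroup W] [DistribMulAction ↥(Iner A) W]

/-- sums of products indexed by a finite type can be indexed by some `Fin n` -/
theorem prodAux_of_fintype {X Y : Type} {P : (X → Qb) → Prop} {Q : (Y → Qb) → Prop} {ι : Type}
    [Fintype ι] (g : ι → X → Qb) (h : ι → Y → Qb) (hg : ∀ i, P (g i)) (hh : ∀ i, Q (h i)) :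
    ∃ (n : ℕ) (g' : Fin n → X → Qb) (h' : Fin n → Y → Qb), (∀ i, P (g' i)) ∧ (∀ i, Q (h' i)) ∧
      ∀ x y, ∑ i, g i x * h i y = ∑ i, g' i x * h' i y := by
  refine ⟨Fintype.card ι, fun i => g ((Fintype.equivFin ι).symm i),
    fun i => h ((Fintype.equivFin ι).symm i), fun i => hg _, fun i => hh _, fun x y => ?_⟩
  exact (Equiv.sum_comp (Fintype.equivFin ι).symm (fun i => g i x * h i y)).symm

theorem prodAux_inA0_mul {a b : Qb} (ha : InA0 A a) (hb : InA0 A b) : InA0 A (a * b) :=
  ⟨mul_mem ha.1 hb.1, mul_mem ha.2 hb.2⟩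

theorem prodAux_inA0_sum {ι : Type} (s : Finset ι) {a : ι → Qb} (ha : ∀ i, InA0 A (a i)) :
    InA0 A (∑ i ∈ s, a i) :=
  ⟨sum_mem fun i _ => (ha i).1, sum_mem fun i _ => (ha i).2⟩

variable {W' : Type} [AddCommGroup W'] [DistribMulAction ↥(Iner A) W']

/-- the functions on `W × W'` which are sums of products -/
def prodAuxIsTens (M : Model A W) (M' : Model A W') (G : W × W' → Qb) : Prop :=
  ∃ (n : ℕ) (g : Fin n → W → Qb) (h : Fin n → W' → Qb), (∀ i, g i ∈ M.carrier) ∧
    (∀ i, h i ∈ M'.carrier) ∧ ∀ x, G x = ∑ i, g i x.1 * h i x.2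

theorem prodAuxIsTens_of_fintype (M : Model A W) (M' : Model A W') {G : W × W' → Qb} {ι : Type}
    [Fintype ι] (g : ι → W → Qb) (h : ι → W' → Qb) (hg : ∀ i, g i ∈ M.carrier)
    (hh : ∀ i, h i ∈ M'.carrier) (e : ∀ x, G x = ∑ i, g i x.1 * h i x.2) :
    prodAuxIsTens M M' G := by
  obtain ⟨n, g', h', hg', hh', e'⟩ := prodAux_of_fintype (P := (· ∈ M.carrier))
    (Q := (· ∈ M'.carrier)) g h hg hh
  exact ⟨n, g', h', hg', hh', fun x => by rw [e, e']⟩

theorem prodAuxIsTens_pure (M : Model A W) (M' : Model A W') {g : W → Qb} {h : W' → Qb}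
    (hg : g ∈ M.carrier) (hh : h ∈ M'.carrier) :
    prodAuxIsTens M M' (fun x => g x.1 * h x.2) :=
  prodAuxIsTens_of_fintype M M' (ι := Unit) (fun _ => g) (fun _ => h) (fun _ => hg) (fun _ => hh)
    (fun x => by simp)

/-- the ring of sums of products -/
def prodAuxCarrier (M : Model A W) (M' : Model A W') : Subring (W × W' → Qb) where
  carrier := {G | prodAuxIsTens M M' G}
  mul_mem' := by
    rintro G G' ⟨n, g, h, hg, hh, e⟩ ⟨n', g', h', hg', hh', e'⟩
    refine prodAuxIsTens_of_fintype M M' (ι := Fin n × Fin n') (fun t => g t.1 * g' t.2)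
      (fun t => h t.1 * h' t.2) (fun t => mul_mem (hg _) (hg' _))
      (fun t => mul_mem (hh _) (hh' _)) (fun x => ?_)
    rw [Pi.mul_apply, e, e', Finset.sum_mul_sum, Fintype.sum_prod_type]
    refine Finset.sum_congr rfl fun i _ => Finset.sum_congr rfl fun j _ => ?_
    simp only [Pi.mul_apply]
    ring
  one_mem' := by
    have h := prodAuxIsTens_pure M M' M.carrier.one_mem M'.carrier.one_mem
    have e : (fun x : W × W' => (1 : W → Qb) x.1 * (1 : W' → Qb) x.2) = 1 := by
      funext x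
      simp
    rw [e] at h
    exact h
  add_mem' := by
    rintro G G' ⟨n, g, h, hg, hh, e⟩ ⟨n', g', h', hg', hh', e'⟩
    refine prodAuxIsTens_of_fintype M M' (ι := Fin n ⊕ Fin n') (Sum.elim g g') (Sum.elim h h')
      (fun t => ?_) (fun t => ?_) (fun x => ?_)
    · rcases t with i | i
      · exact hg i
      · exact hg' i
    · rcases t with i | i
      · exact hh i
      · exact hh' i
    · rw [Pi.add_apply, e, e', Fintype.sum_sum_type]
      rfl
  zero_mem' :=
    ⟨0, fun i => i.elim0, fun i => i.elim0, fun i => i.elim0, fun i => i.elim0, fun x => by simp⟩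
  neg_mem' := by
    rintro G ⟨n, g, h, hg, hh, e⟩
    refine ⟨n, fun i => -g i, h, fun i => neg_mem (hg i), hh, fun x => ?_⟩
    rw [Pi.neg_apply, e, ← Finset.sum_neg_distrib]
    refine Finset.sum_congr rfl fun i _ => ?_
    simp only [Pi.neg_apply]
    ring

theorem mem_prodAuxCarrier (M : Model A W) (M' : Model A W') {G : W × W' → Qb} :
    G ∈ prodAuxCarrier M M' ↔ prodAuxIsTens M M' G := Iff.rfl

theorem Model.exists_prod {W' : Type} [AddCommGroup W'] [DistribMulAction ↥(Iner A) W']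
    (M : Model A W) (M' : Model A W') :
    ∃ M₂ : Model A (W × W'), ∀ G : W × W' → Qb, G ∈ M₂.carrier ↔
      ∃ (n : ℕ) (g : Fin n → W → Qb) (h : Fin n → W' → Qb), (∀ i, g i ∈ M.carrier) ∧
        (∀ i, h i ∈ M'.carrier) ∧ ∀ x, G x = ∑ i, g i x.1 * h i x.2 := by
  refine ⟨{ carrier := prodAuxCarrier M M'
            int := ?_
            equiv := ?_
            const := ?_
            fg := ?_
            sep := ?_
            comul := ?_ }, fun G => Iff.rfl⟩
  · rintro G ⟨n, g, h, hg, hh, e⟩ x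
    rw [e]
    exact sum_mem fun i _ => mul_mem (M.int _ (hg i) _) (M'.int _ (hh i) _)
  · rintro G ⟨n, g, h, hg, hh, e⟩ σ x
    rw [e, e, map_sum]
    refine Finset.sum_congr rfl fun i _ => ?_
    rw [Prod.smul_fst, Prod.smul_snd, M.equiv _ (hg i), M'.equiv _ (hh i), map_mul]
  · intro a ha
    have h := prodAuxIsTens_pure M M' (M.const a ha) M'.carrier.one_mem
    have e : (fun x : W × W' => (fun _ : W => a) x.1 * (1 : W' → Qb) x.2) = fun _ => a := by
      funext x
      simp
    rw [e] at h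
    exact h
  · obtain ⟨n, F, hF, hgen⟩ := M.fg
    obtain ⟨n', F', hF', hgen'⟩ := M'.fg
    refine ⟨n * n', fun t x => F (finProdFinEquiv.symm t).1 x.1 * F' (finProdFinEquiv.symm t).2 x.2,
      fun t => prodAuxIsTens_pure M M' (hF _) (hF' _), ?_⟩
    rintro G ⟨m, g, h, hg, hh, e⟩
    choose a ha ea using fun k => hgen (g k) (hg k)
    choose a' ha' ea' using fun k => hgen' (h k) (hh k)
    refine ⟨fun t => ∑ k, a k (finProdFinEquiv.symm t).1 * a' k (finProdFinEquiv.symm t).2,
      fun t => prodAux_inA0_sum _ fun k => prodAux_inA0_mul (ha k _) (ha' k _), fun x => ?_⟩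
    rw [Equiv.sum_comp finProdFinEquiv.symm
      (fun t : Fin n × Fin n' => (∑ k, a k t.1 * a' k t.2) * (F t.1 x.1 * F' t.2 x.2)), e]
    have key : ∀ k, g k x.1 * h k x.2 =
        ∑ i, ∑ j, a k i * a' k j * (F i x.1 * F' j x.2) := by
      intro k
      rw [ea, ea', Finset.sum_mul_sum]
      exact Finset.sum_congr rfl fun i _ => Finset.sum_congr rfl fun j _ => by ring
    simp only [key, Finset.sum_mul, Fintype.sum_prod_type]
    rw [Finset.sum_comm]
    refine Finset.sum_congr rfl fun i _ => ?_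
    rw [Finset.sum_comm]
  · rintro ⟨w, w'⟩ ⟨v, v'⟩ hall
    have h1 : w = v := M.sep w v fun g hg => by
      have := hall _ (prodAuxIsTens_pure M M' hg M'.carrier.one_mem)
      simpa using this
    have h2 : w' = v' := M'.sep w' v' fun h hh => by
      have := hall _ (prodAuxIsTens_pure M M' M.carrier.one_mem hh)
      simpa using this
    rw [h1, h2]
  · rintro G ⟨m, g, h, hg, hh, e⟩
    choose N a b ha hb eab using fun k => M.comul (g k) (hg k)
    choose N' a' b' ha' hb' eab' using fun k => M'.comul (h k) (hh k)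
    obtain ⟨n, gg, hh2, hgg, hhh, e2⟩ := prodAux_of_fintype
      (P := (· ∈ prodAuxCarrier M M')) (Q := (· ∈ prodAuxCarrier M M'))
      (ι := Σ k : Fin m, Fin (N k) × Fin (N' k))
      (fun t (x : W × W') => a t.1 t.2.1 x.1 * a' t.1 t.2.2 x.2)
      (fun t (y : W × W') => b t.1 t.2.1 y.1 * b' t.1 t.2.2 y.2)
      (fun t => prodAuxIsTens_pure M M' (ha _ _) (ha' _ _))
      (fun t => prodAuxIsTens_pure M M' (hb _ _) (hb' _ _))
    refine ⟨n, gg, hh2, hgg, hhh, fun x y => ?_⟩
    rw [← e2, e, Fintype.sum_sigma]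
    refine Finset.sum_congr rfl fun k _ => ?_
    rw [Prod.fst_add, Prod.snd_add, eab, eab', Finset.sum_mul_sum, Fintype.sum_prod_type]
    refine Finset.sum_congr rfl fun i _ => Finset.sum_congr rfl fun j _ => ?_
    ring

end Fermat.Agent.S56.Flat
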