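/-
S56 / FLAT / block FM (architect helper116), node D6 (owner helper186): the comultiplication of the
quotient order, with the retraction of node D5 as a hypothesis.
-/
import Fermat.Agent.S56.Flat.Defs

set_option autoImplicit false

namespace Fermat.Agent.S56.Flat

open Fermat.Agent.Lib.InertiaField

variable {A : ValuationSubring Qb} {p : ℕ}
variable {W : Type} [AddCommGroup W] [DistribMulAction ↥(Iner A) W]
variable {W'' : Type} [AddCommGroup W''] [DistribMulAction ↥(Iner A) W'']

/-- D6 with the conclusion of D5 as a hypothesis. -/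
theorem Model.quot_comul_of_retraction (M : Model A W)
    (q : W →+[↥(Iner A)] W'') (hq : Function.Surjective q)
    (r : (W → Qb) →ₗ[Qb] (W → Qb)) (hr1 : ∀ f ∈ M.carrier, r f ∈ M.carrier)
    (hr2 : ∀ f, ∃ f'' : W'' → Qb, ∀ w, r f w = f'' (q w))
    (hr3 : ∀ f'' : W'' → Qb, r (fun w => f'' (q w)) = fun w => f'' (q w))
    (f'' : W'' → Qb) (hf : (fun w => f'' (q w)) ∈ M.carrier) :
    ∃ (n : ℕ) (g h : Fin n → W'' → Qb), (∀ i, (fun w => g i (q w)) ∈ M.carrier) ∧
      (∀ i, (fun w => h i (q w)) ∈ M.carrier) ∧ ∀ x x', f'' (x + x') = ∑ i, g i x * h i x' := by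
  obtain ⟨n, g, h, hg, hh, hgh⟩ := M.comul _ hf
  choose G hG using fun i => hr2 (g i)
  choose H hH using fun i => hr2 (h i)
  have step1 : ∀ w w', f'' (q w + q w') = ∑ i, h i w' * G i (q w) := by
    intro w w'
    have e1 : (fun w => f'' (q w + q w')) = ∑ i, h i w' • g i := by
      funext w
      rw [← map_add, hgh, Finset.sum_apply]
      exact Finset.sum_congr rfl fun i _ => mul_comm _ _
    have e2 : r (fun w => f'' (q w + q w')) = fun w => f'' (q w + q w') :=
      hr3 (fun y => f'' (y + q w'))
    calc f'' (q w + q w') = (r (fun w => f'' (q w + q w'))) w := by rw [e2]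
      _ = (r (∑ i, h i w' • g i)) w := by rw [e1]
      _ = ∑ i, h i w' * G i (q w) := by
        rw [map_sum, Finset.sum_apply]
        refine Finset.sum_congr rfl fun i _ => ?_
        rw [map_smul, Pi.smul_apply, smul_eq_mul, hG]
  have step2 : ∀ w w', f'' (q w + q w') = ∑ i, G i (q w) * H i (q w') := by
    intro w w'
    have e1 : (fun w' => f'' (q w + q w')) = ∑ i, G i (q w) • h i := by
      funext w'
      rw [step1, Finset.sum_apply]
      exact Finset.sum_congr rfl fun i _ => mul_comm _ _
    have e2 : r (fun w' => f'' (q w + q w')) = fun w' => f'' (q w + q w') :=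
      hr3 (fun y => f'' (q w + y))
    calc f'' (q w + q w') = (r (fun w' => f'' (q w + q w'))) w' := by rw [e2]
      _ = (r (∑ i, G i (q w) • h i)) w' := by rw [e1]
      _ = ∑ i, G i (q w) * H i (q w') := by
        rw [map_sum, Finset.sum_apply]
        refine Finset.sum_congr rfl fun i _ => ?_
        rw [map_smul, Pi.smul_apply, smul_eq_mul, hH]
  refine ⟨n, G, H, fun i => ?_, fun i => ?_, fun x x' => ?_⟩
  · have e : (fun w => G i (q w)) = r (g i) := funext fun w => (hG i w).symm
    rw [e]
    exact hr1 _ (hg i)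
  · have e : (fun w => H i (q w)) = r (h i) := funext fun w => (hH i w).symm
    rw [e]
    exact hr1 _ (hh i)
  · obtain ⟨w, rfl⟩ := hq x
    obtain ⟨w', rfl⟩ := hq x'
    exact step2 w w'

end Fermat.Agent.S56.Flat
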