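/-
S56 / FLAT / FM-B (helper116): definition of a basis of a model.
-/
import Fermat.Agent.S56.Flat.Defs

set_option autoImplicit false

namespace Fermat.Agent.S56.Flat

open Fermat.Agent.Lib.InertiaField

variable {A : ValuationSubring Qb}
variable {W : Type} [AddCommGroup W] [DistribMulAction ↥(Iner A) W]

/-- `F` is an `A0`-basis of the order. -/
structure Model.IsBasis (M : Model A W) {n : ℕ} (F : Fin n → W → Qb) : Prop where
  mem : ∀ i, F i ∈ M.carrier
  gen : ∀ f ∈ M.carrier, ∃ a : Fin n → Qb, (∀ i, InA0 A (a i)) ∧ ∀ w, f w = ∑ i, a i * F i w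
  indep : ∀ a : Fin n → Qb, (∀ i, a i ∈ K0 A) → (∀ w, ∑ i, a i * F i w = 0) → ∀ i, a i = 0

end Fermat.Agent.S56.Flat
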