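/-
S56 / FLAT / FM-B1 (helper293; architect helper116): a model has a basis over `A0`.
-/
import Fermat.Agent.S56.Flat.Mod.BasisDefs

set_option autoImplicit false

namespace Fermat.Agent.S56.Flat

open Fermat.Agent.Lib.InertiaField

variable {A : ValuationSubring Qb} {p : ℕ}
variable {W : Type} [AddCommGroup W] [DistribMulAction ↥(Iner A) W]

/-- `F` generates the order. -/
private def Basis1Gen (M : Model A W) (n : ℕ) : Prop :=
  ∃ F : Fin n → W → Qb, (∀ i, F i ∈ M.carrier) ∧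
    ∀ f ∈ M.carrier, ∃ a : Fin n → Qb, (∀ i, InA0 A (a i)) ∧ ∀ w, f w = ∑ i, a i * F i w

/-- a dependent generator can be removed. -/
private theorem basis1_remove (M : Model A W) {m : ℕ} {F : Fin (m + 1) → W → Qb}
    (hF : ∀ i, F i ∈ M.carrier)
    (hgen : ∀ f ∈ M.carrier, ∃ a : Fin (m + 1) → Qb, (∀ i, InA0 A (a i)) ∧
      ∀ w, f w = ∑ i, a i * F i w)
    {a : Fin (m + 1) → Qb} (ha : ∀ i, a i ∈ K0 A) (hrel : ∀ w, ∑ i, a i * F i w = 0)
    {i₀ : Fin (m + 1)} (hi₀ : a i₀ ≠ 0) : Basis1Gen M m := by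
  obtain ⟨j, -, hj⟩ := Finset.exists_max_image Finset.univ (fun i => A.valuation (a i))
    ⟨i₀, Finset.mem_univ _⟩
  have hj0 : a j ≠ 0 := by
    intro h0
    have h1 := hj i₀ (Finset.mem_univ _)
    rw [h0, map_zero, le_zero_iff, map_eq_zero] at h1
    exact hi₀ h1
  have hc : ∀ i, InA0 A (a i / a j) := by
    intro i
    refine ⟨div_mem (ha i) (ha j), ?_⟩
    rw [← A.valuation_le_one_iff, map_div₀]
    exact div_le_one_of_le₀ (hj i (Finset.mem_univ _)) zero_le
  have hFj : ∀ w, F j w = - ∑ i : Fin m, a (j.succAbove i) / a j * F (j.succAbove i) w := by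
    intro w
    have h1 := hrel w
    rw [Fin.sum_univ_succAbove _ j] at h1
    have h2 : F j w = - ((∑ i : Fin m, a (j.succAbove i) * F (j.succAbove i) w) / a j) := by
      field_simp
      linear_combination h1
    rw [h2, Finset.sum_div]
    congr 1
    refine Finset.sum_congr rfl fun i _ => ?_
    ring
  refine ⟨fun i => F (j.succAbove i), fun i => hF _, fun f hf => ?_⟩
  obtain ⟨b, hb, hfb⟩ := hgen f hf
  refine ⟨fun i => b (j.succAbove i) - b j * (a (j.succAbove i) / a j), fun i => ?_, fun w => ?_⟩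
  · exact ⟨sub_mem (hb _).1 (mul_mem (hb j).1 (hc _).1), sub_mem (hb _).2 (mul_mem (hb j).2 (hc _).2)⟩
  · rw [hfb w, Fin.sum_univ_succAbove _ j, hFj w, mul_neg, Finset.mul_sum, ← Finset.sum_neg_distrib,
      ← Finset.sum_add_distrib]
    refine Finset.sum_congr rfl fun i _ => ?_
    ring

/-- B1 `Flat/Mod/Basis1.lean` -/
theorem Model.exists_isBasis (hp : p.Prime) (hA : A.LiesOverPrime p) (M : Model A W) :
    ∃ (n : ℕ) (F : Fin n → W → Qb), M.IsBasis F := by
  classical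
  have hex : ∃ n, Basis1Gen M n := M.fg
  obtain ⟨n, ⟨F, hF, hgen⟩, hmin⟩ : ∃ n, Basis1Gen M n ∧ ∀ m < n, ¬ Basis1Gen M m :=
    ⟨Nat.find hex, Nat.find_spec hex, fun m hm => Nat.find_min hex hm⟩
  refine ⟨n, F, hF, hgen, fun a ha hrel i₀ => ?_⟩
  by_contra hi₀
  cases n with
  | zero => exact i₀.elim0
  | succ m => exact hmin m (Nat.lt_succ_self m) (basis1_remove M hF hgen ha hrel hi₀)

end Fermat.Agent.S56.Flat
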