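/-
S56 / FLAT / FM-B2 (architect helper116, proof helper294): Artin's lemma.  An `A0`-basis of a model is
linearly independent over `Qb` (as functions on `W`).
-/
import Fermat.Agent.S56.Flat.Mod.BasisDefs

set_option autoImplicit false

namespace Fermat.Agent.S56.Flat

open Fermat.Agent.Lib.InertiaField

variable {A : ValuationSubring Qb} {p : ℕ}
variable {W : Type} [AddCommGroup W] [DistribMulAction ↥(Iner A) W]

/-- B2 (Artin) `Flat/Mod/Basis2.lean` -/
theorem Model.IsBasis.indep_Qb {M : Model A W} {n : ℕ} {F : Fin n → W → Qb} (hF : M.IsBasis F)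
    (l : Fin n → Qb) (h : ∀ w, ∑ i, l i * F i w = 0) : ∀ i, l i = 0 := by
  classical
  have key : ∀ (m : ℕ) (l : Fin n → Qb), (Finset.univ.filter (fun i => l i ≠ 0)).card = m →
      (∀ w, ∑ i, l i * F i w = 0) → ∀ i, l i = 0 := by
    intro m
    induction m using Nat.strong_induction_on with
    | _ m ih =>
      intro l hm h
      by_contra hcon
      obtain ⟨i0, hi0⟩ : ∃ i0, l i0 ≠ 0 := by
        by_contra hne
        exact hcon fun i => by
          by_contra hi
          exact hne ⟨i, hi⟩
      -- normalise
      obtain ⟨l', hl'⟩ : ∃ l' : Fin n → Qb, ∀ i, l' i = (l i0)⁻¹ * l i := ⟨_, fun _ => rfl⟩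
      have hrel' : ∀ w, ∑ i, l' i * F i w = 0 := by
        intro w
        have : ∑ i, l' i * F i w = (l i0)⁻¹ * ∑ i, l i * F i w := by
          rw [Finset.mul_sum]
          exact Finset.sum_congr rfl fun i _ => by rw [hl', mul_assoc]
        rw [this, h w, mul_zero]
      have hl'i0 : l' i0 = 1 := by rw [hl', inv_mul_cancel₀ hi0]
      have hK : ∀ i, l' i ∈ K0 A := by
        intro i
        rw [mem_K0_iff]
        intro σ hσ
        have hrelσ : ∀ w, ∑ j, (σ (l' j) - l' j) * F j w = 0 := by
          intro w
          have h1 := congrArg σ (hrel' ((⟨σ, hσ⟩ : ↥(Iner A))⁻¹ • w))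
          rw [map_sum, map_zero] at h1
          have h2 : ∑ j, σ (l' j) * F j w = 0 := by
            rw [← h1]
            refine Finset.sum_congr rfl fun j _ => ?_
            rw [map_mul]
            have h3 := M.equiv (F j) (hF.mem j) ⟨σ, hσ⟩ ((⟨σ, hσ⟩ : ↥(Iner A))⁻¹ • w)
            rw [smul_inv_smul] at h3
            rw [h3]
          simp only [sub_mul, Finset.sum_sub_distrib, h2, hrel' w, sub_zero]
        have hlt : (Finset.univ.filter (fun j => σ (l' j) - l' j ≠ 0)).card < m := by
          rw [← hm]
          refine Finset.card_lt_card ?_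
          rw [Finset.ssubset_iff_of_subset]
          · exact ⟨i0, by simp [hi0], by simp [hl'i0]⟩
          · intro j hj
            simp only [Finset.mem_filter, Finset.mem_univ, true_and] at hj ⊢
            intro hj0
            apply hj
            rw [hl', hj0, mul_zero, map_zero, sub_zero]
        exact sub_eq_zero.1 (ih _ hlt (fun j => σ (l' j) - l' j) rfl hrelσ i)
      have h4 := hF.indep l' hK hrel' i0
      rw [hl'i0] at h4
      exact one_ne_zero h4
  exact key _ l rfl h

end Fermat.Agent.S56.Flat
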