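/-
S56 / FLAT / FM-B3 (helper276): a basis of a model spans all `Qb`-valued functions
(Lagrange interpolation: the order separates the points of the finite set `W`).
-/
import Fermat.Agent.S56.Flat.Mod.BasisDefs

set_option autoImplicit false

namespace Fermat.Agent.S56.Flat

open Fermat.Agent.Lib.InertiaField

variable {A : ValuationSubring Qb} {p : ℕ}
variable {W : Type} [AddCommGroup W] [DistribMulAction ↥(Iner A) W]

/-- B3 (interpolation) -/
theorem Model.IsBasis.span_Qb [Finite W] {M : Model A W} {n : ℕ} {F : Fin n → W → Qb}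
    (hF : M.IsBasis F) (G : W → Qb) : ∃ l : Fin n → Qb, ∀ w, G w = ∑ i, l i * F i w := by
  classical
  have := Fintype.ofFinite W
  set S : Submodule Qb (W → Qb) := Submodule.span Qb (Set.range F) with hS
  have hcar : ∀ f ∈ M.carrier, f ∈ S := by
    intro f hf
    obtain ⟨a, -, ha⟩ := hF.gen f hf
    rw [hS, Submodule.mem_span_range_iff_exists_fun]
    refine ⟨a, ?_⟩
    funext w
    simp [ha w, Finset.sum_apply]
  have hmul : ∀ f g : W → Qb, f ∈ S → g ∈ S → f * g ∈ S := by
    intro f g hf hg
    induction hf using Submodule.span_induction with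
    | mem x hx =>
      induction hg using Submodule.span_induction with
      | mem y hy =>
        obtain ⟨i, rfl⟩ := hx
        obtain ⟨j, rfl⟩ := hy
        exact hcar _ (M.carrier.mul_mem (hF.mem i) (hF.mem j))
      | zero => simp
      | add y z _ _ hy hz => rw [mul_add]; exact S.add_mem hy hz
      | smul c y _ hy => rw [mul_smul_comm]; exact S.smul_mem c hy
    | zero => simp
    | add x y _ _ hx hy => rw [add_mul]; exact S.add_mem hx hy
    | smul c x _ hx => rw [smul_mul_assoc]; exact S.smul_mem c hx
  have hone : (1 : W → Qb) ∈ S := hcar _ M.carrier.one_mem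
  have hsep : ∀ w w' : W, w ≠ w' → ∃ f ∈ M.carrier, f w ≠ f w' := by
    intro w w' hne
    by_contra hcon
    push Not at hcon
    exact hne (M.sep w w' hcon)
  have hind : ∀ w : W, Pi.single w (1 : Qb) ∈ S := by
    intro w
    choose! f hfc hfne using hsep w
    have hprod : (∏ w' ∈ Finset.univ.erase w, (f w' - (f w' w') • (1 : W → Qb))) ∈ S := by
      refine Finset.prod_induction _ (fun g => g ∈ S) hmul hone ?_
      intro x hx
      have hxw : w ≠ x := fun h => (Finset.ne_of_mem_erase hx) h.symm
      exact S.sub_mem (hcar _ (hfc x hxw)) (S.smul_mem _ hone)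
    have hne : (∏ w' ∈ Finset.univ.erase w, (f w' w - f w' w')) ≠ 0 := by
      rw [Finset.prod_ne_zero_iff]
      intro x hx
      have hxw : w ≠ x := fun h => (Finset.ne_of_mem_erase hx) h.symm
      exact sub_ne_zero.mpr (hfne x hxw)
    have hEq : Pi.single w (1 : Qb) = (∏ w' ∈ Finset.univ.erase w, (f w' w - f w' w'))⁻¹ •
        (∏ w' ∈ Finset.univ.erase w, (f w' - (f w' w') • (1 : W → Qb))) := by
      funext x
      by_cases hx : x = w
      · subst hx
        simp only [Pi.single_eq_same, Pi.smul_apply, Finset.prod_apply, Pi.sub_apply,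
          Pi.one_apply, smul_eq_mul, mul_one]
        exact (inv_mul_cancel₀ hne).symm
      · rw [Pi.single_eq_of_ne hx]
        simp only [Pi.smul_apply, Finset.prod_apply, Pi.sub_apply,
          Pi.one_apply, smul_eq_mul, mul_one]
        have h0 : (∏ w' ∈ Finset.univ.erase w, (f w' x - f w' w')) = 0 :=
          Finset.prod_eq_zero (Finset.mem_erase.mpr ⟨hx, Finset.mem_univ x⟩) (sub_self _)
        rw [h0, mul_zero]
    rw [hEq]
    exact S.smul_mem _ hprod
  have hG : G ∈ S := by
    have : G = ∑ w, G w • Pi.single w (1 : Qb) := by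
      funext x
      simp [Finset.sum_apply, Pi.single_apply]
    rw [this]
    exact S.sum_mem fun w _ => S.smul_mem _ (hind w)
  rw [hS, Submodule.mem_span_range_iff_exists_fun] at hG
  obtain ⟨l, hl⟩ := hG
  refine ⟨l, fun w => ?_⟩
  rw [← hl]
  simp [Finset.sum_apply]

end Fermat.Agent.S56.Flat
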