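/-
S56 / FLAT / block FM-A (architect helper116): basic algebra of models.
-/
import Fermat.Agent.S56.Flat.Defs

set_option autoImplicit false

namespace Fermat.Agent.S56.Flat

open Fermat.Agent.Lib.InertiaField

variable {A : ValuationSubring Qb} {p : ℕ}
variable {W : Type} [AddCommGroup W] [DistribMulAction ↥(Iner A) W]

theorem Model.smul_mem (M : Model A W) {a : Qb} (ha : InA0 A a) {f : W → Qb}
    (hf : f ∈ M.carrier) : (fun w => a * f w) ∈ M.carrier :=
  M.carrier.mul_mem (M.const a ha) hf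

theorem Model.sum_smul_mem (M : Model A W) {n : ℕ} {a : Fin n → Qb} (ha : ∀ i, InA0 A (a i))
    {F : Fin n → W → Qb} (hF : ∀ i, F i ∈ M.carrier) :
    (fun w => ∑ i, a i * F i w) ∈ M.carrier := by
  have h : (fun w => ∑ i, a i * F i w) = ∑ i, (fun w => a i * F i w) := by
    funext w
    rw [Finset.sum_apply]
  rw [h]
  exact M.carrier.sum_mem fun i _ => M.smul_mem (ha i) (hF i)

/-- the value at the origin is an element of `A0`. -/
theorem Model.basic_inA0_zero (M : Model A W) {f : W → Qb} (hf : f ∈ M.carrier) :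
    InA0 A (f 0) := by
  refine ⟨(mem_K0_iff A _).2 fun τ hτ => ?_, M.int f hf 0⟩
  have h := M.equiv f hf ⟨τ, hτ⟩ 0
  rw [smul_zero] at h
  exact h.symm

/-- sums of products of elements of the order. -/
theorem Model.basic_sum_mul_mem (M : Model A W) {n : ℕ} {g h : Fin n → W → Qb}
    (hg : ∀ i, g i ∈ M.carrier) (hh : ∀ i, h i ∈ M.carrier) :
    (fun w => ∑ i, g i w * h i w) ∈ M.carrier := by
  have e : (fun w => ∑ i, g i w * h i w) = ∑ i, g i * h i := by
    funext w
    rw [Finset.sum_apply]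
    rfl
  rw [e]
  exact M.carrier.sum_mem fun i _ => M.carrier.mul_mem (hg i) (hh i)

theorem Model.comp_nsmul_mem (M : Model A W) {f : W → Qb} (hf : f ∈ M.carrier) (n : ℕ) :
    (fun w => f (n • w)) ∈ M.carrier := by
  induction n generalizing f with
  | zero =>
    have e : (fun w : W => f (0 • w)) = fun _ => f 0 := by
      funext w
      rw [zero_smul]
    rw [e]
    exact M.const _ (M.basic_inA0_zero hf)
  | succ n ih =>
    obtain ⟨m, g, h, hg, hh, hgh⟩ := M.comul f hf
    have e : (fun w : W => f ((n + 1) • w)) = fun w => ∑ i, g i (n • w) * h i w := by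
      funext w
      rw [succ_nsmul, hgh]
    rw [e]
    exact M.basic_sum_mul_mem (g := fun i w => g i (n • w)) (fun i => ih (hg i)) hh

theorem Model.comp_neg_mem [Finite W] (M : Model A W) {f : W → Qb} (hf : f ∈ M.carrier) :
    (fun w => f (-w)) ∈ M.carrier := by
  have e : (fun w : W => f (-w)) = fun w => f ((Nat.card W - 1) • w) := by
    funext w
    congr 1
    have h1 : (Nat.card W - 1) • w + w = 0 := by
      rw [← succ_nsmul, Nat.sub_add_cancel Nat.card_pos]
      exact card_nsmul_eq_zero'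
    exact (eq_neg_of_add_eq_zero_left h1).symm
  rw [e]
  exact M.comp_nsmul_mem hf _

theorem Model.cosub [Finite W] (M : Model A W) {f : W → Qb} (hf : f ∈ M.carrier) :
    ∃ (n : ℕ) (g h : Fin n → W → Qb), (∀ i, g i ∈ M.carrier) ∧ (∀ i, h i ∈ M.carrier) ∧
      ∀ w w', f (w - w') = ∑ i, g i w * h i w' := by
  obtain ⟨m, g, h, hg, hh, hgh⟩ := M.comul f hf
  refine ⟨m, g, fun i w => h i (-w), hg, fun i => M.comp_neg_mem (hh i), fun w w' => ?_⟩
  rw [sub_eq_add_neg, hgh]

/-- the cross term of the comultiplication -/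
theorem Model.comul_cross (M : Model A W) {f : W → Qb} (hf : f ∈ M.carrier) :
    ∃ (n : ℕ) (g h : Fin n → W → Qb), (∀ i, g i ∈ M.carrier) ∧ (∀ i, h i ∈ M.carrier) ∧
      ∀ w w', f (w + w') - f w - f w' + f 0 = ∑ i, (g i w - g i 0) * (h i w' - h i 0) := by
  obtain ⟨m, g, h, hg, hh, hgh⟩ := M.comul f hf
  refine ⟨m, g, h, hg, hh, fun w w' => ?_⟩
  have h1 := hgh w w'
  have h2 := hgh w 0
  have h3 := hgh 0 w'
  have h4 := hgh 0 0
  rw [add_zero] at h2 h4
  rw [zero_add] at h3
  rw [h1, h2, h3, h4, ← Finset.sum_sub_distrib, ← Finset.sum_sub_distrib, ← Finset.sum_add_distrib]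
  refine Finset.sum_congr rfl fun i _ => ?_
  ring

end Fermat.Agent.S56.Flat
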