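/-
S56 / FLAT / block FM-D0 (architect helper116): the sum over the fibres of an equivariant map
preserves the order.  (helper245, task 2712)
-/
import Fermat.Agent.S56.Flat.Mod.Basic

set_option autoImplicit false

namespace Fermat.Agent.S56.Flat

open Fermat.Agent.Lib.InertiaField

variable {A : ValuationSubring Qb} {p : ℕ}
variable {W : Type} [AddCommGroup W] [DistribMulAction ↥(Iner A) W]

section Quot

variable {W'' : Type} [AddCommGroup W''] [DistribMulAction ↥(Iner A) W'']

/-- the sum of an element of the order over the kernel of `q` is an element of `A0`. -/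
theorem Model.quotAvg_inA0_sum [Fintype W] [DecidableEq W''] (M : Model A W)
    (q : W →+[↥(Iner A)] W'') {h : W → Qb} (hh : h ∈ M.carrier) :
    InA0 A (∑ u ∈ Finset.univ.filter (fun u : W => q u = 0), h u) := by
  refine ⟨(mem_K0_iff A _).2 fun τ hτ => ?_, A.toSubring.sum_mem fun u _ => M.int h hh u⟩
  rw [map_sum]
  have e : ∀ u : W, τ (h u) = h ((⟨τ, hτ⟩ : ↥(Iner A)) • u) := fun u =>
    (M.equiv h hh ⟨τ, hτ⟩ u).symm
  simp only [e]
  refine Finset.sum_bij' (fun u _ => (⟨τ, hτ⟩ : ↥(Iner A)) • u)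
    (fun u _ => (⟨τ, hτ⟩ : ↥(Iner A))⁻¹ • u) ?_ ?_ ?_ ?_ ?_
  · intro u hu
    rw [Finset.mem_filter] at hu ⊢
    refine ⟨Finset.mem_univ _, ?_⟩
    rw [map_smul, hu.2, smul_zero]
  · intro u hu
    rw [Finset.mem_filter] at hu ⊢
    refine ⟨Finset.mem_univ _, ?_⟩
    rw [map_smul, hu.2, smul_zero]
  · intro u _
    rw [inv_smul_smul]
  · intro u _
    rw [smul_inv_smul]
  · intro u _
    rfl

/-- D0 `Flat/Mod/QuotAvg.lean`: the sum over the fibres of `q`. -/
theorem Model.fibre_sum_mem [Fintype W] [DecidableEq W''] (M : Model A W)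
    (q : W →+[↥(Iner A)] W'') {f : W → Qb} (hf : f ∈ M.carrier) :
    (fun w => ∑ u ∈ Finset.univ.filter (fun u : W => q u = 0), f (w + u)) ∈ M.carrier := by
  obtain ⟨n, g, h, hg, hh, hgh⟩ := M.comul f hf
  have e : (fun w => ∑ u ∈ Finset.univ.filter (fun u : W => q u = 0), f (w + u)) =
      fun w => ∑ i, (∑ u ∈ Finset.univ.filter (fun u : W => q u = 0), h i u) * g i w := by
    funext w
    simp only [hgh]
    rw [Finset.sum_comm]
    refine Finset.sum_congr rfl fun i _ => ?_
    rw [Finset.sum_mul]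
    refine Finset.sum_congr rfl fun u _ => ?_
    rw [mul_comm]
  rw [e]
  exact M.sum_smul_mem (fun i => M.quotAvg_inA0_sum q (hh i)) hg

end Quot

end Fermat.Agent.S56.Flat
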