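/-
S56 / FLAT / FM-D5 (architect helper116): the `Qb`-linear projector onto the `q`-invariant functions
which preserves the order.  CORE: the nodes B2, B3, D0, D4 are explicit hypotheses.
-/
import Fermat.Agent.S56.Flat.Defs
import Fermat.Agent.S56.Flat.Mod.BasisDefs

set_option autoImplicit false
set_option linter.unusedSectionVars false

namespace Fermat.Agent.S56.Flat

open Fermat.Agent.Lib.InertiaField

variable {A : ValuationSubring Qb}
variable {W : Type} [AddCommGroup W] [DistribMulAction ↥(Iner A) W]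
variable {W'' : Type} [AddCommGroup W''] [DistribMulAction ↥(Iner A) W'']

namespace QuotRetract

/-- `A0 A → Qb` -/
noncomputable def phi (A : ValuationSubring Qb) : ↥(A0 A) →+* Qb :=
  (algebraMap (K0 A) Qb).comp (A0 A).subtype

theorem inA0_phi (a : ↥(A0 A)) : InA0 A (phi A a) := ⟨(a : K0 A).2, a.2⟩

theorem exists_phi_eq {x : Qb} (hx : InA0 A x) : ∃ a : ↥(A0 A), phi A a = x :=
  ⟨⟨⟨x, hx.1⟩, hx.2⟩, rfl⟩

theorem phi_injective : Function.Injective (phi A) := fun _ _ h =>
  Subtype.ext (Subtype.ext h)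

/-- the combination of the `F i` with coefficients in `A0 A` -/
noncomputable def comb {n : ℕ} (F : Fin n → W → Qb) (a : Fin n → ↥(A0 A)) : W → Qb :=
  fun w => ∑ i, phi A (a i) * F i w

theorem comb_eq_sum {n : ℕ} (F : Fin n → W → Qb) (a : Fin n → ↥(A0 A)) :
    comb F a = ∑ i, phi A (a i) • F i := by
  funext w
  rw [Finset.sum_apply]
  rfl

theorem comb_mem (M : Model A W) {n : ℕ} {F : Fin n → W → Qb} (hF : ∀ i, F i ∈ M.carrier)
    (a : Fin n → ↥(A0 A)) : comb F a ∈ M.carrier := by
  rw [comb_eq_sum]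
  refine sum_mem fun i _ => ?_
  exact M.carrier.mul_mem (M.const _ (inA0_phi (a i))) (hF i)

theorem exists_comb_eq {M : Model A W} {n : ℕ} {F : Fin n → W → Qb} (hF : M.IsBasis F)
    {f : W → Qb} (hf : f ∈ M.carrier) : ∃ a : Fin n → ↥(A0 A), comb F a = f := by
  obtain ⟨a, ha, h⟩ := hF.gen f hf
  choose a' ha' using fun i => exists_phi_eq (ha i)
  refine ⟨a', funext fun w => ?_⟩
  rw [h w]
  exact Finset.sum_congr rfl fun i _ => by rw [ha']

/-- the coefficient vectors of the functions factoring through `q` -/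
noncomputable def invSub {n : ℕ} (F : Fin n → W → Qb) (q : W → W'') :
    Submodule ↥(A0 A) (Fin n → ↥(A0 A)) where
  carrier := {a | ∃ f'' : W'' → Qb, ∀ w, comb F a w = f'' (q w)}
  add_mem' := by
    rintro a b ⟨f, hf⟩ ⟨g, hg⟩
    refine ⟨fun x => f x + g x, fun w => ?_⟩
    show comb F (a + b) w = f (q w) + g (q w)
    rw [← hf, ← hg]
    unfold comb
    rw [← Finset.sum_add_distrib]
    exact Finset.sum_congr rfl fun i _ => by rw [Pi.add_apply, map_add, add_mul]
  zero_mem' := ⟨fun _ => 0, fun w => by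
    unfold comb
    exact Finset.sum_eq_zero fun i _ => by rw [Pi.zero_apply, map_zero, zero_mul]⟩
  smul_mem' := by
    rintro c a ⟨f, hf⟩
    refine ⟨fun x => phi A c * f x, fun w => ?_⟩
    show comb F (c • a) w = phi A c * f (q w)
    rw [← hf]
    unfold comb
    rw [Finset.mul_sum]
    exact Finset.sum_congr rfl fun i _ => by
      rw [Pi.smul_apply, smul_eq_mul, map_mul, mul_assoc]

theorem mem_invSub {n : ℕ} (F : Fin n → W → Qb) (q : W → W'') (a : Fin n → ↥(A0 A)) :
    a ∈ invSub F q ↔ ∃ f'' : W'' → Qb, ∀ w, comb F a w = f'' (q w) := Iff.rfl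

theorem invSub_saturated {n : ℕ} (F : Fin n → W → Qb) (q : W → W'') (c : ↥(A0 A))
    (a : Fin n → ↥(A0 A)) (hc : c ≠ 0) (h : c • a ∈ invSub F q) : a ∈ invSub F q := by
  obtain ⟨f, hf⟩ := h
  have hc' : phi A c ≠ 0 := fun h0 => hc (phi_injective (by rw [h0, map_zero]))
  refine ⟨fun x => (phi A c)⁻¹ * f x, fun w => ?_⟩
  show comb F a w = (phi A c)⁻¹ * f (q w)
  rw [← hf, eq_inv_mul_iff_mul_eq₀ hc']
  unfold comb
  rw [Finset.mul_sum]
  exact Finset.sum_congr rfl fun i _ => by
    rw [Pi.smul_apply, smul_eq_mul, map_mul, mul_assoc]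

/-- the sum over the fibres of `q` -/
noncomputable def avg [Fintype W] [DecidableEq W''] (q : W → W'') (f : W → Qb) : W → Qb :=
  fun w => ∑ u ∈ Finset.univ.filter (fun u : W => q u = 0), f (w + u)

theorem avg_sum_smul [Fintype W] [DecidableEq W''] (q : W → W'') {n : ℕ} (l : Fin n → Qb)
    (F : Fin n → W → Qb) : avg q (∑ i, l i • F i) = ∑ i, l i • avg q (F i) := by
  funext w
  unfold avg
  simp only [Finset.sum_apply, Pi.smul_apply, smul_eq_mul, Finset.mul_sum]
  exact Finset.sum_comm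

theorem avg_add [Fintype W] [DecidableEq W''] (q : W →+ W'') (f : W → Qb) (w d : W)
    (hd : q d = 0) : avg q f (w + d) = avg q f w := by
  unfold avg
  refine Finset.sum_nbij' (fun u => d + u) (fun u => -d + u) ?_ ?_ ?_ ?_ ?_
  · intro u hu
    rw [Finset.mem_filter] at hu ⊢
    exact ⟨Finset.mem_univ _, by rw [map_add, hd, hu.2, add_zero]⟩
  · intro u hu
    rw [Finset.mem_filter] at hu ⊢
    exact ⟨Finset.mem_univ _, by rw [map_add, map_neg, hd, hu.2, neg_zero, add_zero]⟩
  · intro u _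
    exact neg_add_cancel_left d u
  · intro u _
    exact add_neg_cancel_left d u
  · intro u _
    rw [add_assoc]

theorem avg_factors [Fintype W] [DecidableEq W''] (q : W →+ W'') (hq : Function.Surjective q)
    (f : W → Qb) : ∃ f'' : W'' → Qb, ∀ w, avg q f w = f'' (q w) := by
  refine ⟨fun x => avg q f (Function.surjInv hq x), fun w => ?_⟩
  have hd : q (Function.surjInv hq (q w) - w) = 0 := by
    rw [map_sub, Function.surjInv_eq hq, sub_self]
  have := avg_add q f w _ hd
  rw [add_sub_cancel] at this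
  exact this.symm

theorem avg_comp [Fintype W] [DecidableEq W''] (q : W →+ W'') (f'' : W'' → Qb) :
    avg q (fun w => f'' (q w)) =
      ((Finset.univ.filter (fun u : W => q u = 0)).card : Qb) • fun w => f'' (q w) := by
  funext w
  unfold avg
  rw [Pi.smul_apply, smul_eq_mul, ← nsmul_eq_mul, ← Finset.sum_const]
  refine Finset.sum_congr rfl fun u hu => ?_
  rw [Finset.mem_filter] at hu
  show f'' (q (w + u)) = f'' (q w)
  rw [map_add, hu.2, add_zero]

theorem card_ker_ne_zero [Fintype W] [DecidableEq W''] (q : W →+ W'') :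
    ((Finset.univ.filter (fun u : W => q u = 0)).card : Qb) ≠ 0 := by
  rw [Nat.cast_ne_zero]
  exact Finset.card_ne_zero_of_mem (a := 0) (by
    rw [Finset.mem_filter]
    exact ⟨Finset.mem_univ _, map_zero q⟩)

end QuotRetract

open QuotRetract in
/-- D5, from the nodes B2, B3, D0, D4. -/
theorem Model.exists_quot_retraction_core [Fintype W] [DecidableEq W''] (M : Model A W)
    (q : W →+[↥(Iner A)] W'') (hq : Function.Surjective q) {n : ℕ} {F : Fin n → W → Qb}
    (hF : M.IsBasis F)
    (hind : ∀ l : Fin n → Qb, (∀ w, ∑ i, l i * F i w = 0) → ∀ i, l i = 0)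
    (hspan : ∀ G : W → Qb, ∃ l : Fin n → Qb, ∀ w, G w = ∑ i, l i * F i w)
    (hE : ∀ f ∈ M.carrier,
      (fun w => ∑ u ∈ Finset.univ.filter (fun u : W => q u = 0), f (w + u)) ∈ M.carrier)
    (hD4 : ∀ N : Submodule ↥(A0 A) (Fin n → ↥(A0 A)),
      (∀ (a : ↥(A0 A)) (x : Fin n → ↥(A0 A)), a ≠ 0 → a • x ∈ N → x ∈ N) →
      ∃ r : (Fin n → ↥(A0 A)) →ₗ[↥(A0 A)] (Fin n → ↥(A0 A)), (∀ x, r x ∈ N) ∧ ∀ x ∈ N, r x = x) :
    ∃ r : (W → Qb) →ₗ[Qb] (W → Qb), (∀ f ∈ M.carrier, r f ∈ M.carrier) ∧
      (∀ f, ∃ f'' : W'' → Qb, ∀ w, r f w = f'' (q w)) ∧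
      (∀ f'' : W'' → Qb, r (fun w => f'' (q w)) = fun w => f'' (q w)) := by
  classical
  obtain ⟨r', hr'N, hr'id⟩ := hD4 (invSub F q) (invSub_saturated F q)
  -- the `Qb`-basis
  have hsum : ∀ (l : Fin n → Qb) (w : W), (∑ i, l i • F i) w = ∑ i, l i * F i w := by
    intro l w
    rw [Finset.sum_apply]
    rfl
  have hli : LinearIndependent Qb F := by
    rw [Fintype.linearIndependent_iff]
    intro l hl
    refine hind l fun w => ?_
    rw [← hsum, hl]
    rfl
  have hspan' : ∀ G : W → Qb, ∃ l : Fin n → Qb, G = ∑ i, l i • F i := by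
    intro G
    obtain ⟨l, hl⟩ := hspan G
    exact ⟨l, funext fun w => by rw [hl, hsum]⟩
  have hsp : ⊤ ≤ Submodule.span Qb (Set.range F) := by
    intro G _
    obtain ⟨l, rfl⟩ := hspan' G
    exact Submodule.sum_mem _ fun i _ =>
      Submodule.smul_mem _ _ (Submodule.subset_span ⟨i, rfl⟩)
  let b : Module.Basis (Fin n) Qb (W → Qb) := Module.Basis.mk hli hsp
  let e : Fin n → Fin n → ↥(A0 A) := fun i j => if i = j then 1 else 0
  let r : (W → Qb) →ₗ[Qb] (W → Qb) := b.constr Qb fun i => comb F (r' (e i))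
  have hrF : ∀ i, r (F i) = comb F (r' (e i)) := by
    intro i
    have h1 : b i = F i := Module.Basis.mk_apply hli hsp i
    rw [← h1]
    exact b.constr_basis Qb _ i
  have hrsum : ∀ l : Fin n → Qb, r (∑ i, l i • F i) = ∑ i, l i • comb F (r' (e i)) := by
    intro l
    rw [map_sum]
    exact Finset.sum_congr rfl fun i _ => by rw [map_smul, hrF]
  -- `r` on the order
  have hrcomb : ∀ a : Fin n → ↥(A0 A), r (comb F a) = comb F (r' a) := by
    intro a
    rw [comb_eq_sum, hrsum]
    have h1 : r' a = ∑ i, a i • r' (e i) := LinearMap.pi_apply_eq_sum_univ r' a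
    funext w
    rw [h1, Finset.sum_apply]
    unfold comb
    simp only [Pi.smul_apply, smul_eq_mul, Finset.sum_apply, map_sum, map_mul, Finset.mul_sum,
      Finset.sum_mul]
    rw [Finset.sum_comm]
    exact Finset.sum_congr rfl fun j _ => Finset.sum_congr rfl fun i _ => by ring
  refine ⟨r, ?_, ?_, ?_⟩
  · intro f hf
    obtain ⟨a, rfl⟩ := exists_comb_eq hF hf
    rw [hrcomb]
    exact comb_mem M hF.mem _
  · intro f
    obtain ⟨l, rfl⟩ := hspan' f
    choose g hg using fun i => hr'N (e i)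
    refine ⟨fun x => ∑ i, l i * g i x, fun w => ?_⟩
    rw [hrsum, Finset.sum_apply]
    exact Finset.sum_congr rfl fun i _ => by rw [Pi.smul_apply, smul_eq_mul, hg]
  · intro f''
    obtain ⟨l, hl⟩ := hspan' fun w => f'' (q w)
    have hfix : ∀ i, r (avg q (F i)) = avg q (F i) := by
      intro i
      obtain ⟨a, ha⟩ := exists_comb_eq hF (hE (F i) (hF.mem i))
      have ha' : comb F a = avg q (F i) := ha
      have haN : a ∈ invSub F q := by
        obtain ⟨g, hg⟩ := avg_factors (q : W →+ W'') hq (F i)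
        exact ⟨g, fun w => by rw [ha']; exact hg w⟩
      rw [← ha', hrcomb, hr'id a haN]
    have h1 : avg q (fun w => f'' (q w)) = ∑ i, l i • avg q (F i) := by
      rw [hl, avg_sum_smul]
    have h2 := avg_comp (q : W →+ W'') f''
    have h3 : ((Finset.univ.filter (fun u : W => q u = 0)).card : Qb) • (fun w => f'' (q w)) =
        ∑ i, l i • avg q (F i) := h2.symm.trans h1
    have h4 : r (((Finset.univ.filter (fun u : W => q u = 0)).card : Qb) •
        (fun w => f'' (q w))) =
        ((Finset.univ.filter (fun u : W => q u = 0)).card : Qb) • (fun w => f'' (q w)) := by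
      rw [h3, map_sum]
      exact Finset.sum_congr rfl fun i _ => by rw [map_smul, hfix]
    rw [map_smul] at h4
    exact smul_right_injective _ (card_ker_ne_zero (q : W →+ W'')) h4

end Fermat.Agent.S56.Flat
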