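/-
S56 / FLAT / block FM, node D4 (owner helper147): a saturated submodule of a finite torsion free module
over a principal ideal domain is a direct summand.  Mathlib only.
-/
import Mathlib

set_option autoImplicit false

namespace Fermat.Agent.S56.Flat

/-- D4 (abstract, Mathlib only) `Flat/Mod/Retract.lean` -/
theorem exists_retraction_of_saturated {R M : Type*} [CommRing R] [IsDomain R]
    [IsPrincipalIdealRing R] [AddCommGroup M] [Module R M] [Module.Finite R M]
    [Module.IsTorsionFree R M] (N : Submodule R M)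
    (hN : ∀ (a : R) (x : M), a ≠ 0 → a • x ∈ N → x ∈ N) :
    ∃ r : M →ₗ[R] M, (∀ x, r x ∈ N) ∧ ∀ x ∈ N, r x = x := by
  have htf : Module.IsTorsionFree R (M ⧸ N) := by
    refine ⟨fun a ha x y hxy => ?_⟩
    obtain ⟨x, rfl⟩ := Submodule.mkQ_surjective N x
    obtain ⟨y, rfl⟩ := Submodule.mkQ_surjective N y
    have h1 : N.mkQ (a • (x - y)) = 0 := by
      have h2 : a • N.mkQ x = a • N.mkQ y := hxy
      rw [smul_sub, map_sub, map_smul, map_smul, h2, sub_self]
    rw [Submodule.mkQ_apply, Submodule.Quotient.mk_eq_zero] at h1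
    have h3 := hN a (x - y) ha.ne_zero h1
    rw [← sub_eq_zero, ← map_sub, Submodule.mkQ_apply, Submodule.Quotient.mk_eq_zero]
    exact h3
  have hfree : Module.Free R (M ⧸ N) := Module.free_of_finite_type_torsion_free'
  obtain ⟨s, hs⟩ := Module.projective_lifting_property N.mkQ LinearMap.id
    (Submodule.mkQ_surjective N)
  refine ⟨LinearMap.id - s.comp N.mkQ, fun x => ?_, fun x hx => ?_⟩
  · rw [← Submodule.Quotient.mk_eq_zero, ← Submodule.mkQ_apply]
    have h1 : N.mkQ (s (N.mkQ x)) = N.mkQ x := LinearMap.congr_fun hs (N.mkQ x)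
    simp only [LinearMap.sub_apply, LinearMap.id_apply, LinearMap.comp_apply, map_sub, h1,
      sub_self]
  · have h1 : N.mkQ x = 0 := by
      rw [Submodule.mkQ_apply, Submodule.Quotient.mk_eq_zero]
      exact hx
    simp only [LinearMap.sub_apply, LinearMap.id_apply, LinearMap.comp_apply, h1, map_zero,
      sub_zero]

end Fermat.Agent.S56.Flat
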