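/-
S56 / FLAT / FM-D5 (architect helper116): a `Qb`-linear projector of `Map(W, Qb)` onto the
`q`-invariant functions which preserves the order.
-/
import Fermat.Agent.S56.Flat.Mod.QuotRetractCore
import Fermat.Agent.S56.Flat.Mod.Basis1
import Fermat.Agent.S56.Flat.Mod.Basis2
import Fermat.Agent.S56.Flat.Mod.Basis3
import Fermat.Agent.S56.Flat.Mod.QuotAvg
import Fermat.Agent.S56.Flat.Mod.Retract

set_option autoImplicit false

namespace Fermat.Agent.S56.Flat

open Fermat.Agent.Lib.InertiaField

variable {A : ValuationSubring Qb} {p : ℕ}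
variable {W : Type} [AddCommGroup W] [DistribMulAction ↥(Iner A) W]
variable {W'' : Type} [AddCommGroup W''] [DistribMulAction ↥(Iner A) W'']

/-- D5 `Flat/Mod/QuotRetract.lean`: a `Qb`-linear projector of `Map(W, Qb)` onto the `q`-invariant
functions which preserves the order. -/
theorem Model.exists_quot_retraction (hp : p.Prime) (hA : A.LiesOverPrime p) [Finite W]
    (M : Model A W) (q : W →+[↥(Iner A)] W'') (hq : Function.Surjective q) :
    ∃ r : (W → Qb) →ₗ[Qb] (W → Qb), (∀ f ∈ M.carrier, r f ∈ M.carrier) ∧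
      (∀ f, ∃ f'' : W'' → Qb, ∀ w, r f w = f'' (q w)) ∧
      (∀ f'' : W'' → Qb, r (fun w => f'' (q w)) = fun w => f'' (q w)) := by
  classical
  have := Fintype.ofFinite W
  have hdvr : IsDiscreteValuationRing ↥(A0 A) := isDiscreteValuationRing_A0 A p hp hA
  obtain ⟨n, F, hF⟩ := M.exists_isBasis hp hA
  exact M.exists_quot_retraction_core q hq hF hF.indep_Qb hF.span_Qb
    (fun f hf => M.fibre_sum_mem q hf) (fun N hN => exists_retraction_of_saturated N hN)

end Fermat.Agent.S56.Flat
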