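/-
S56 / FLAT / block FM (architect helper116), node D6 (owner helper186): the comultiplication of the
quotient order.
-/
import Fermat.Agent.S56.Flat.Mod.QuotComulCore
import Fermat.Agent.S56.Flat.Mod.QuotRetract

set_option autoImplicit false

namespace Fermat.Agent.S56.Flat

open Fermat.Agent.Lib.InertiaField

variable {A : ValuationSubring Qb} {p : ℕ}
variable {W : Type} [AddCommGroup W] [DistribMulAction ↥(Iner A) W]
variable {W'' : Type} [AddCommGroup W''] [DistribMulAction ↥(Iner A) W'']

/-- D6 `Flat/Mod/QuotComul.lean` -/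
theorem Model.quot_comul (hp : p.Prime) (hA : A.LiesOverPrime p) [Finite W] (M : Model A W)
    (q : W →+[↥(Iner A)] W'') (hq : Function.Surjective q) (f'' : W'' → Qb)
    (hf : (fun w => f'' (q w)) ∈ M.carrier) :
    ∃ (n : ℕ) (g h : Fin n → W'' → Qb), (∀ i, (fun w => g i (q w)) ∈ M.carrier) ∧
      (∀ i, (fun w => h i (q w)) ∈ M.carrier) ∧ ∀ x x', f'' (x + x') = ∑ i, g i x * h i x' := by
  obtain ⟨r, hr1, hr2, hr3⟩ := M.exists_quot_retraction hp hA q hq
  exact M.quot_comul_of_retraction q hq r hr1 hr2 hr3 f'' hf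

end Fermat.Agent.S56.Flat
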