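/-
S56 / FLAT / block FM (architect helper116), node D2: the `q`-invariant functions of a model form a
finitely generated module.  Proofs: helper224.
-/
import Fermat.Agent.S56.Flat.Defs

set_option autoImplicit false

namespace Fermat.Agent.S56.Flat

open Fermat.Agent.Lib.InertiaField

/-- Abstract form: `R` noetherian, `C` a ring of functions `X → Ω` which is a finitely generated
`R`-module; then the functions of `C` which factor through `q : X → Y` form a finitely generated
`R`-module. -/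
private theorem quotFg_abs {R Ω X Y : Type*} [CommRing R] [IsNoetherianRing R] [CommRing Ω]
    (e : R →+* Ω) (C : Subring (X → Ω)) (hconst : ∀ r, (fun _ : X => e r) ∈ C)
    (hfg : ∃ (n : ℕ) (F : Fin n → X → Ω), (∀ i, F i ∈ C) ∧
      ∀ f ∈ C, ∃ a : Fin n → R, ∀ w, f w = ∑ i, e (a i) * F i w)
    (q : X → Y) (hq : Function.Surjective q) :
    ∃ (n : ℕ) (F : Fin n → Y → Ω), (∀ i, (fun w => F i (q w)) ∈ C) ∧
      ∀ f'' : Y → Ω, (fun w => f'' (q w)) ∈ C →
        ∃ a : Fin n → R, ∀ x, f'' x = ∑ i, e (a i) * F i x := by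
  classical
  letI : Algebra R Ω := e.toAlgebra
  have hsmul : ∀ (r : R) (f : X → Ω), r • f = (fun _ : X => e r) * f := fun r f => rfl
  -- `C` as a submodule
  let Cm : Submodule R (X → Ω) :=
    { carrier := {f | f ∈ C}
      add_mem' := fun ha hb => C.add_mem ha hb
      zero_mem' := C.zero_mem
      smul_mem' := fun r f hf => by
        show r • f ∈ C
        rw [hsmul]
        exact C.mul_mem (hconst r) hf }
  have hCm : ∀ f, f ∈ Cm ↔ f ∈ C := fun _ => Iff.rfl
  have hCfg : Cm.FG := by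
    obtain ⟨n, F, hF, hspan⟩ := hfg
    have h1 : Cm = Submodule.span R (Set.range F) := by
      apply le_antisymm
      · intro f hf
        obtain ⟨a, ha⟩ := hspan f hf
        rw [Submodule.mem_span_range_iff_exists_fun]
        refine ⟨a, ?_⟩
        funext w
        rw [ha w, Finset.sum_apply]
        rfl
      · rw [Submodule.span_le]
        rintro _ ⟨i, rfl⟩
        exact hF i
    rw [h1]
    exact Submodule.fg_span (Set.finite_range F)
  -- the invariant functions
  let Nm : Submodule R (X → Ω) :=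
    { carrier := {f | f ∈ C ∧ ∃ f'' : Y → Ω, f = fun w => f'' (q w)}
      add_mem' := by
        rintro _ _ ⟨ha, f, rfl⟩ ⟨hb, g, rfl⟩
        exact ⟨C.add_mem ha hb, f + g, rfl⟩
      zero_mem' := ⟨C.zero_mem, 0, rfl⟩
      smul_mem' := by
        rintro r _ ⟨ha, f, rfl⟩
        exact ⟨Cm.smul_mem r ha, r • f, rfl⟩ }
  have hNfg : Nm.FG := hCfg.of_le (fun f hf => hf.1)
  obtain ⟨n, s, hs⟩ := Submodule.fg_iff_exists_fin_generating_family.1 hNfg
  have hsN : ∀ i, s i ∈ Nm := fun i => by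
    rw [← hs]
    exact Submodule.subset_span ⟨i, rfl⟩
  choose F hF using fun i => (hsN i).2
  refine ⟨n, F, fun i => ?_, fun f'' hf'' => ?_⟩
  · rw [← hF i]
    exact (hsN i).1
  · have h1 : (fun w => f'' (q w)) ∈ Nm := ⟨hf'', f'', rfl⟩
    rw [← hs, Submodule.mem_span_range_iff_exists_fun] at h1
    obtain ⟨a, ha⟩ := h1
    refine ⟨a, fun x => ?_⟩
    obtain ⟨w, rfl⟩ := hq x
    have h2 := congrFun ha w
    rw [Finset.sum_apply] at h2
    rw [← h2]
    refine Finset.sum_congr rfl fun i _ => ?_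
    show e (a i) * s i w = e (a i) * F i (q w)
    rw [hF i]

variable {A : ValuationSubring Qb} {p : ℕ}
variable {W : Type} [AddCommGroup W] [DistribMulAction ↥(Iner A) W]

section Quot

variable {W'' : Type} [AddCommGroup W''] [DistribMulAction ↥(Iner A) W'']

/-- D2 `Flat/Mod/QuotFg.lean` -/
theorem Model.quot_fg (hp : p.Prime) (hA : A.LiesOverPrime p) (M : Model A W)
    (q : W →+[↥(Iner A)] W'') (hq : Function.Surjective q) :
    ∃ (n : ℕ) (F : Fin n → W'' → Qb), (∀ i, (fun w => F i (q w)) ∈ M.carrier) ∧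
      ∀ f'' : W'' → Qb, (fun w => f'' (q w)) ∈ M.carrier →
        ∃ a : Fin n → Qb, (∀ i, InA0 A (a i)) ∧ ∀ x, f'' x = ∑ i, a i * F i x := by
  haveI : IsDiscreteValuationRing (A0 A) := isDiscreteValuationRing_A0 A p hp hA
  let e : ↥(A0 A) →+* Qb := (algebraMap (K0 A) Qb).comp (A0 A).subtype
  have he : ∀ r : ↥(A0 A), InA0 A (e r) := fun r => ⟨r.1.2, r.2⟩
  have he' : ∀ a : Qb, InA0 A a → ∃ r : ↥(A0 A), e r = a := fun a ha => ⟨⟨⟨a, ha.1⟩, ha.2⟩, rfl⟩
  obtain ⟨n, F, hF, hspan⟩ := quotFg_abs e M.carrier (fun r => M.const _ (he r)) (by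
    obtain ⟨n, F, hF, hspan⟩ := M.fg
    refine ⟨n, F, hF, fun f hf => ?_⟩
    obtain ⟨a, ha, hfa⟩ := hspan f hf
    choose r hr using fun i => he' (a i) (ha i)
    exact ⟨r, fun w => by rw [hfa w]; simp only [hr]⟩) q hq
  refine ⟨n, F, hF, fun f'' hf'' => ?_⟩
  obtain ⟨a, ha⟩ := hspan f'' hf''
  exact ⟨fun i => e (a i), fun i => he (a i), ha⟩

end Quot

end Fermat.Agent.S56.Flat
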