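/-
S56 / FLAT / FM-B6, B7 (task 2710, helper275): representation of functionals on a model by measures.
-/
import Fermat.Agent.S56.Flat.Mod.Basis1
import Fermat.Agent.S56.Flat.Mod.Basis2
import Fermat.Agent.S56.Flat.Mod.Basis3

set_option autoImplicit false

namespace Fermat.Agent.S56.Flat

open Fermat.Agent.Lib.InertiaField

variable {A : ValuationSubring Qb} {p : ℕ}
variable {W : Type} [AddCommGroup W] [DistribMulAction ↥(Iner A) W]

private theorem rep_smul_mem (M : Model A W) {a : Qb} (ha : InA0 A a) {f : W → Qb}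
    (hf : f ∈ M.carrier) : (fun w => a * f w) ∈ M.carrier :=
  M.carrier.mul_mem (M.const a ha) hf

/-- an additive, `A0`-homogeneous map on the order commutes with finite `A0`-combinations -/
private theorem rep_map_sum (M : Model A W) (φ : (W → Qb) → Qb)
    (hadd : ∀ f ∈ M.carrier, ∀ g ∈ M.carrier, φ (f + g) = φ f + φ g)
    (hsmul : ∀ a : Qb, InA0 A a → ∀ f ∈ M.carrier, φ (fun w => a * f w) = a * φ f)
    {n : ℕ} {F : Fin n → W → Qb} (hF : ∀ i, F i ∈ M.carrier) {c : Fin n → Qb}
    (hc : ∀ i, InA0 A (c i)) (s : Finset (Fin n)) :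
    (fun w => ∑ i ∈ s, c i * F i w) ∈ M.carrier ∧
      φ (fun w => ∑ i ∈ s, c i * F i w) = ∑ i ∈ s, c i * φ (F i) := by
  classical
  induction s using Finset.induction_on with
  | empty =>
    have h0 : φ 0 = 0 := by
      have h := hadd 0 M.carrier.zero_mem 0 M.carrier.zero_mem
      rw [add_zero] at h
      exact left_eq_add.1 h
    have e : (fun w : W => ∑ i ∈ (∅ : Finset (Fin n)), c i * F i w) = 0 := by
      funext w
      simp
    rw [e]
    exact ⟨M.carrier.zero_mem, by simpa using h0⟩
  | insert j s hj ih =>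
    have e : (fun w : W => ∑ i ∈ insert j s, c i * F i w) =
        (fun w => c j * F j w) + fun w => ∑ i ∈ s, c i * F i w := by
      funext w
      rw [Finset.sum_insert hj]
      rfl
    have hm := rep_smul_mem M (hc j) (hF j)
    rw [e]
    refine ⟨M.carrier.add_mem hm ih.1, ?_⟩
    rw [hadd _ hm _ ih.1, hsmul _ (hc j) _ (hF j), ih.2, Finset.sum_insert hj]

/-- B6 (representation of functionals) `Flat/Mod/Rep.lean` -/
theorem Model.exists_rep (hp : p.Prime) (hA : A.LiesOverPrime p) [Fintype W]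
    (M : Model A W) (φ : (W → Qb) → Qb)
    (hadd : ∀ f ∈ M.carrier, ∀ g ∈ M.carrier, φ (f + g) = φ f + φ g)
    (hsmul : ∀ a : Qb, InA0 A a → ∀ f ∈ M.carrier, φ (fun w => a * f w) = a * φ f) :
    ∃ a : W → Qb, ∀ f ∈ M.carrier, φ f = ∑ w, a w * f w := by
  classical
  obtain ⟨n, F, hF⟩ := M.exists_isBasis hp hA
  have hex : ∀ w : W, ∃ l : Fin n → Qb, ∀ v, (Pi.single w (1 : Qb) : W → Qb) v =
      ∑ i, l i * F i v := fun w => hF.span_Qb _
  choose l hl using hex
  refine ⟨fun w => ∑ i, l w i * φ (F i), fun f hf => ?_⟩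
  obtain ⟨c, hc, hfc⟩ := hF.gen f hf
  have hφ : φ f = ∑ i, c i * φ (F i) := by
    have h := (rep_map_sum M φ hadd hsmul hF.mem hc Finset.univ).2
    rwa [show (fun w => ∑ i, c i * F i w) = f from (funext hfc).symm] at h
  -- the coordinates of `f`
  have hcoord : ∀ i, ∑ w, f w * l w i = c i := by
    have h0 : ∀ i, (fun i => ∑ w, f w * l w i - c i) i = 0 := by
      apply hF.indep_Qb
      intro v
      have h1 : f v = ∑ w, f w * (Pi.single w (1 : Qb) : W → Qb) v := by
        rw [Finset.sum_eq_single v]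
        · simp
        · intro b _ hb
          rw [Pi.single_eq_of_ne (Ne.symm hb), mul_zero]
        · intro h
          exact absurd (Finset.mem_univ v) h
      have h2 : ∑ i, (∑ w, f w * l w i) * F i v = f v := by
        rw [h1]
        simp_rw [hl, Finset.mul_sum, Finset.sum_mul]
        rw [Finset.sum_comm]
        refine Finset.sum_congr rfl fun w _ => Finset.sum_congr rfl fun i _ => ?_
        ring
      simp_rw [sub_mul]
      rw [Finset.sum_sub_distrib, h2, ← hfc v, sub_self]
    intro i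
    exact sub_eq_zero.1 (h0 i)
  rw [hφ]
  simp_rw [Finset.sum_mul]
  rw [Finset.sum_comm]
  refine Finset.sum_congr rfl fun i _ => ?_
  rw [← hcoord i, Finset.sum_mul]
  refine Finset.sum_congr rfl fun w _ => ?_
  ring

/-- B7 (a measure killing the order is zero) `Flat/Mod/Rep.lean` -/
theorem Model.eq_zero_of_pairing (hp : p.Prime) (hA : A.LiesOverPrime p) [Fintype W]
    (M : Model A W) (a : W → Qb) (h : ∀ f ∈ M.carrier, ∑ w, a w * f w = 0) : a = 0 := by
  classical
  obtain ⟨n, F, hF⟩ := M.exists_isBasis hp hA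
  funext w₀
  obtain ⟨l, hl⟩ := hF.span_Qb (Pi.single w₀ (1 : Qb))
  have h1 : a w₀ = ∑ w, a w * (Pi.single w₀ (1 : Qb) : W → Qb) w := by
    rw [Finset.sum_eq_single w₀]
    · simp
    · intro b _ hb
      rw [Pi.single_eq_of_ne hb, mul_zero]
    · intro h
      exact absurd (Finset.mem_univ w₀) h
  rw [h1]
  simp_rw [hl, Finset.mul_sum]
  rw [Finset.sum_comm]
  refine Finset.sum_eq_zero fun i _ => ?_
  have h2 := h (F i) (hF.mem i)
  calc ∑ w, a w * (l i * F i w) = l i * ∑ w, a w * F i w := by
        rw [Finset.mul_sum]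
        refine Finset.sum_congr rfl fun w _ => ?_
        ring
    _ = 0 := by rw [h2, mul_zero]

end Fermat.Agent.S56.Flat
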