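/-
S56 / FLAT / block FM (architect helper116), node D1: the functions of the order which factor through a
quotient separate the points of the quotient.
-/
import Fermat.Agent.S56.Flat.Mod.QuotAvg
import Fermat.Agent.S56.Flat.Mod.Rep

set_option autoImplicit false

namespace Fermat.Agent.S56.Flat

open Fermat.Agent.Lib.InertiaField

variable {A : ValuationSubring Qb} {p : ℕ}
variable {W : Type} [AddCommGroup W] [DistribMulAction ↥(Iner A) W]

section Quot

variable {W'' : Type} [AddCommGroup W''] [DistribMulAction ↥(Iner A) W'']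

/-- the sum over a fibre of `q`, as a pairing with the indicator of the fibre -/
private theorem quotSep_fibre_sum [Fintype W] [DecidableEq W''] (q : W →+[↥(Iner A)] W'')
    (f : W → Qb) (w₁ : W) :
    ∑ u ∈ Finset.univ.filter (fun u : W => q u = 0), f (w₁ + u) =
      ∑ w, (if q w = q w₁ then (1 : Qb) else 0) * f w := by
  rw [← Equiv.sum_comp (Equiv.addLeft w₁) (fun w => (if q w = q w₁ then (1 : Qb) else 0) * f w),
    Finset.sum_filter]
  refine Finset.sum_congr rfl fun u _ => ?_
  have h1 : q (Equiv.addLeft w₁ u) = q w₁ ↔ q u = 0 := by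
    rw [Equiv.coe_addLeft, map_add]
    exact add_eq_left
  by_cases h : q u = 0
  · rw [if_pos h, if_pos (h1.2 h), one_mul]
    rfl
  · rw [if_neg h, if_neg (fun h' => h (h1.1 h')), zero_mul]

/-- D1 `Flat/Mod/QuotSep.lean` -/
theorem Model.quot_sep (hp : p.Prime) (hA : A.LiesOverPrime p) [Finite W] (M : Model A W)
    (q : W →+[↥(Iner A)] W'') (hq : Function.Surjective q) (x x' : W'')
    (h : ∀ f'' : W'' → Qb, (fun w => f'' (q w)) ∈ M.carrier → f'' x = f'' x') : x = x' := by
  classical
  have := Fintype.ofFinite W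
  have key : ∀ f ∈ M.carrier,
      ∑ w, ((if q w = x then (1 : Qb) else 0) - (if q w = x' then (1 : Qb) else 0)) * f w = 0 := by
    intro f hf
    have h1 := h (fun y => ∑ w, (if q w = y then (1 : Qb) else 0) * f w) (by
      have h2 := M.fibre_sum_mem q hf
      have h3 : (fun w => ∑ u ∈ Finset.univ.filter (fun u : W => q u = 0), f (w + u)) =
          fun w₁ => ∑ w, (if q w = q w₁ then (1 : Qb) else 0) * f w :=
        funext fun w₁ => quotSep_fibre_sum q f w₁
      rw [h3] at h2
      exact h2)
    simp only [sub_mul, Finset.sum_sub_distrib]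
    exact sub_eq_zero.2 h1
  have h0 := M.eq_zero_of_pairing hp hA _ key
  obtain ⟨w₁, rfl⟩ := hq x
  have h1 := congrFun h0 w₁
  simp only [if_true, Pi.zero_apply] at h1
  by_contra hne
  rw [if_neg hne, sub_zero] at h1
  exact one_ne_zero h1

end Quot

end Fermat.Agent.S56.Flat
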