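/-
S56 / FLAT (architect helper116), FM-D7: the quotient model, and `FlatLoc.of_surjective`.
-/
import Fermat.Agent.S56.Flat.Mod.QuotSep
import Fermat.Agent.S56.Flat.Mod.QuotFg
import Fermat.Agent.S56.Flat.Mod.QuotComul

set_option autoImplicit false

namespace Fermat.Agent.S56.Flat

open Fermat.Agent.Lib.InertiaField

variable {A : ValuationSubring Qb} {p : ℕ}
variable {W : Type} [AddCommGroup W] [DistribMulAction ↥(Iner A) W]

section Quot

variable {W'' : Type} [AddCommGroup W''] [DistribMulAction ↥(Iner A) W'']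

/-- D7 `Flat/Mod/Quot.lean` -/
theorem Model.exists_quot (hp : p.Prime) (hA : A.LiesOverPrime p) [Finite W] (M : Model A W)
    (q : W →+[↥(Iner A)] W'') (hq : Function.Surjective q) :
    ∃ M'' : Model A W'', ∀ f'' : W'' → Qb, f'' ∈ M''.carrier ↔ (fun w => f'' (q w)) ∈ M.carrier := by
  let φ : (W'' → Qb) →+* (W → Qb) := RingHom.pi fun w => Pi.evalRingHom (fun _ : W'' => Qb) (q w)
  have hφ : ∀ f'' : W'' → Qb, f'' ∈ M.carrier.comap φ ↔ (fun w => f'' (q w)) ∈ M.carrier :=
    fun f'' => Iff.rfl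
  refine ⟨{ carrier := M.carrier.comap φ
            int := ?_
            equiv := ?_
            const := ?_
            fg := ?_
            sep := ?_
            comul := ?_ }, hφ⟩
  · intro f hf x
    obtain ⟨w, rfl⟩ := hq x
    exact M.int _ ((hφ f).1 hf) w
  · intro f hf σ x
    obtain ⟨w, rfl⟩ := hq x
    rw [← map_smul]
    exact M.equiv _ ((hφ f).1 hf) σ w
  · intro a ha
    exact (hφ _).2 (M.const a ha)
  · obtain ⟨n, F, hF, h⟩ := M.quot_fg hp hA q hq
    exact ⟨n, F, fun i => (hφ _).2 (hF i), fun f hf => h f ((hφ f).1 hf)⟩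
  · intro x x' h
    exact M.quot_sep hp hA q hq x x' fun f'' hf => h f'' ((hφ f'').2 hf)
  · intro f hf
    obtain ⟨n, g, h, hg, hh, hgh⟩ := M.quot_comul hp hA q hq f ((hφ f).1 hf)
    exact ⟨n, g, h, fun i => (hφ _).2 (hg i), fun i => (hφ _).2 (hh i), hgh⟩

end Quot

/-- (SQ) quotients. -/
theorem FlatLoc.of_surjective (hp : p.Prime) (hA : A.LiesOverPrime p) [Finite W]
    {W'' : Type} [AddCommGroup W''] [DistribMulAction ↥(Iner A) W'']
    (h : FlatLoc A W) (q : W →+[↥(Iner A)] W'') (hq : Function.Surjective q) :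
    FlatLoc A W'' := by
  obtain ⟨M⟩ := h
  obtain ⟨M'', -⟩ := M.exists_quot hp hA q hq
  exact ⟨M''⟩

end Fermat.Agent.S56.Flat
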