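/-
S56 / FLAT / block FM, node F2: the convolution product in coordinates.   Owner: helper206.
-/
import Fermat.Agent.S56.Flat.Defs
import Fermat.Prelude.Def_GaloisRep_Flat

set_option autoImplicit false

namespace Fermat.Agent.S56.Flat

open Fermat.Agent.Lib.InertiaField

variable {p : ℕ}

section In

variable (H : Type) [CommRing H] [HopfAlgebra (GaloisRep.ratLocalizedAt p) H]

/-- F2 `Flat/Mod/InConv.lean`: the convolution product in coordinates. -/
theorem conv_apply_eq_sum (h : H) :
    ∃ (n : ℕ) (x y : Fin n → H), ∀ f g : WithConv (H →ₐ[GaloisRep.ratLocalizedAt p] Qb),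
      (f * g) h = ∑ i, f (x i) * g (y i) := by
  obtain ⟨s, hs⟩ := TensorProduct.exists_finset (R := GaloisRep.ratLocalizedAt p)
    (Coalgebra.comul (R := GaloisRep.ratLocalizedAt p) h)
  refine ⟨s.card, fun i => (s.equivFin.symm i).1.1, fun i => (s.equivFin.symm i).1.2,
    fun f g => ?_⟩
  rw [AlgHom.convMul_apply, hs, map_sum]
  simp only [Algebra.TensorProduct.lift_tmul]
  rw [← Finset.sum_coe_sort s, ← Equiv.sum_comp s.equivFin.symm]

end In

end Fermat.Agent.S56.Flat
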