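/-
S56 / FLAT / block FM (architect helper116), node FM-F1 (helper123): points of a finite algebra over
`ℤ_(p)` are integral; the scalars lie in `A0`.
-/
import Fermat.Agent.S56.Flat.Defs
import Fermat.Prelude.Def_GaloisRep_Flat

set_option autoImplicit false

namespace Fermat.Agent.S56.Flat

open Fermat.Agent.Lib.InertiaField

variable {A : ValuationSubring Qb} {p : ℕ}

section In

variable (H : Type) [CommRing H] [HopfAlgebra (GaloisRep.ratLocalizedAt p) H]

/-- F1' `Flat/Mod/InInt.lean`: the scalars. -/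
theorem algebraMap_ratLocalizedAt_inA0 (hp : p.Prime) (hA : A.LiesOverPrime p)
    (r : GaloisRep.ratLocalizedAt p) :
    InA0 A (algebraMap (GaloisRep.ratLocalizedAt p) Qb r) := by
  have e : algebraMap (GaloisRep.ratLocalizedAt p) Qb r = algebraMap ℚ Qb (r : ℚ) := rfl
  rw [e]
  refine ⟨(K0 A).algebraMap_mem _, ?_⟩
  have hcop : (r : ℚ).den.Coprime p := r.2
  have hden : ¬ (p : ℤ) ∣ (((r : ℚ).den : ℕ) : ℤ) := by
    intro h
    have h1 : p ∣ (r : ℚ).den := by exact_mod_cast h
    have h2 : p ∣ Nat.gcd (r : ℚ).den p := Nat.dvd_gcd h1 dvd_rfl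
    rw [hcop] at h2
    exact hp.one_lt.ne' (Nat.dvd_one.mp h2)
  have hv := Unram.valuation_intCast_eq_one hp hA hden
  have h3 : algebraMap ℚ Qb (r : ℚ) = ((r : ℚ).num : Qb) / ((((r : ℚ).den : ℕ) : ℤ) : Qb) := by
    rw [eq_ratCast, Int.cast_natCast]
    exact Rat.cast_def _
  rw [← A.valuation_le_one_iff, h3, map_div₀, hv, div_one, A.valuation_le_one_iff]
  exact intCast_mem A _

/-- F1 `Flat/Mod/InInt.lean`: points of a finite algebra are integral. -/
theorem algHom_apply_mem (hp : p.Prime) (hA : A.LiesOverPrime p)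
    [Module.Finite (GaloisRep.ratLocalizedAt p) H]
    (f : H →ₐ[GaloisRep.ratLocalizedAt p] Qb) (h : H) : f h ∈ A := by
  have h1 : IsIntegral (GaloisRep.ratLocalizedAt p) h := Algebra.IsIntegral.isIntegral h
  let φ : GaloisRep.ratLocalizedAt p →+* A :=
    (algebraMap (GaloisRep.ratLocalizedAt p) Qb).codRestrict A
      (fun r => (algebraMap_ratLocalizedAt_inA0 hp hA r).2)
  have h2 : IsIntegral A (f h) :=
    IsIntegral.map_of_comp_eq φ (f : H →+* Qb) (by
      ext r
      exact (f.commutes r).symm) h1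
  obtain ⟨y, hy⟩ := IsIntegrallyClosed.isIntegral_iff.mp h2
  rw [← hy]
  exact y.2

end In

end Fermat.Agent.S56.Flat
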