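/-
S56 / FLAT / FM-F3 (task 2722): (IN) the points of a finite Hopf algebra over `ℤ_(p)` form a
flat `I`-module: the model is the `A0 A`-span of the evaluation functions `w ↦ (e.symm w) h`.
-/
import Fermat.Agent.S56.Flat.Mod.InInt
import Fermat.Agent.S56.Flat.Mod.InConv

set_option autoImplicit false
set_option linter.unusedSectionVars false

namespace Fermat.Agent.S56.Flat

open Fermat.Agent.Lib.InertiaField

variable {A : ValuationSubring Qb} {p : ℕ}
variable {W : Type} [AddCommGroup W] [DistribMulAction ↥(Iner A) W]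

namespace In

/-- `A0 A`, as a subring of `Qb`. -/
noncomputable def S0 (A : ValuationSubring Qb) : Subring Qb :=
  (K0 A).toSubfield.toSubring ⊓ A.toSubring

theorem mem_S0_iff (a : Qb) : a ∈ S0 A ↔ InA0 A a := Iff.rfl

/-- reindexing of a finite sum decomposition. -/
theorem exists_fin_of_fintype {C : Set (W → Qb)} {G : W → W → Qb}
    (h : ∃ (ι : Type) (_ : Fintype ι) (g h : ι → W → Qb), (∀ i, g i ∈ C) ∧ (∀ i, h i ∈ C) ∧
      ∀ w w', G w w' = ∑ i, g i w * h i w') :
    ∃ (n : ℕ) (g h : Fin n → W → Qb), (∀ i, g i ∈ C) ∧ (∀ i, h i ∈ C) ∧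
      ∀ w w', G w w' = ∑ i, g i w * h i w' := by
  obtain ⟨ι, _, g, h, hg, hh, hG⟩ := h
  refine ⟨Fintype.card ι, g ∘ (Fintype.equivFin ι).symm, h ∘ (Fintype.equivFin ι).symm,
    fun i => hg _, fun i => hh _, fun w w' => ?_⟩
  rw [hG]
  exact ((Fintype.equivFin ι).symm.sum_comp (fun i => g i w * h i w')).symm

section

variable (H : Type) [CommRing H] [HopfAlgebra (GaloisRep.ratLocalizedAt p) H]
  (e : WithConv (H →ₐ[GaloisRep.ratLocalizedAt p] Qb) ≃ W)

/-- evaluation at the points. -/
noncomputable def hat : H →+* (W → Qb) :=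
  RingHom.pi fun w => ((e.symm w).ofConv : H →+* Qb)

theorem hat_apply (h : H) (w : W) : hat H e h w = (e.symm w) h := rfl

/-- the ring of functions. -/
noncomputable def carrier (A : ValuationSubring Qb) : Subring (W → Qb) :=
  (Algebra.adjoin (S0 A) (Set.range (hat H e))).toSubring

theorem mem_carrier_iff (f : W → Qb) :
    f ∈ carrier H e A ↔ f ∈ Submodule.span (S0 A) (Set.range (hat H e)) := by
  have h1 : Subalgebra.toSubmodule (Algebra.adjoin (S0 A) (Set.range (hat H e))) =
      Submodule.span (S0 A) (Set.range (hat H e)) := by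
    rw [Algebra.adjoin_eq_span]
    congr 1
    have : Set.range (hat H e) = ((MonoidHom.mrange (hat H e : H →* (W → Qb)) :
        Submonoid (W → Qb)) : Set (W → Qb)) := by
      ext x; simp
    rw [this, Submonoid.closure_eq]
  rw [← h1]
  rfl

theorem hat_mem_carrier (h : H) : hat H e h ∈ carrier H e A :=
  (mem_carrier_iff H e _).2 (Submodule.subset_span ⟨h, rfl⟩)

theorem smul_mem_carrier {a : Qb} (ha : InA0 A a) {f : W → Qb} (hf : f ∈ carrier H e A) :
    (fun w => a * f w) ∈ carrier H e A := by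
  rw [mem_carrier_iff] at hf ⊢
  exact Submodule.smul_mem _ (⟨a, ha⟩ : S0 A) hf

/-- induction principle -/
theorem carrier_induction {P : (W → Qb) → Prop} (hhat : ∀ h, P (hat H e h)) (h0 : P 0)
    (hadd : ∀ f g, f ∈ carrier H e A → g ∈ carrier H e A → P f → P g → P (f + g))
    (hsmul : ∀ (a : Qb) (f : W → Qb), InA0 A a → f ∈ carrier H e A → P f → P (fun w => a * f w))
    {f : W → Qb} (hf : f ∈ carrier H e A) : P f := by
  rw [mem_carrier_iff] at hf
  induction hf using Submodule.span_induction with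
  | mem x hx => obtain ⟨h, rfl⟩ := hx; exact hhat h
  | zero => exact h0
  | add x y hx hy hx' hy' =>
    exact hadd x y ((mem_carrier_iff H e _).2 hx) ((mem_carrier_iff H e _).2 hy) hx' hy'
  | smul a x hx hx' => exact hsmul a.1 x a.2 ((mem_carrier_iff H e _).2 hx) hx'

end

end In

open In in
/-- (IN) the points of a finite flat cocommutative Hopf algebra over `ℤ_(p)`. -/
theorem flatLoc_of_hopf (hp : p.Prime) (hA : A.LiesOverPrime p)
    (H : Type) [CommRing H] [HopfAlgebra (GaloisRep.ratLocalizedAt p) H]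
    [Module.Finite (GaloisRep.ratLocalizedAt p) H] [Module.Flat (GaloisRep.ratLocalizedAt p) H]
    [Coalgebra.IsCocomm (GaloisRep.ratLocalizedAt p) H]
    (e : WithConv (H →ₐ[GaloisRep.ratLocalizedAt p] Qb) ≃ W)
    (he_add : ∀ f g : WithConv (H →ₐ[GaloisRep.ratLocalizedAt p] Qb), e (f * g) = e f + e g)
    (he_gal : ∀ (σ : ↥(Iner A)) (f g : WithConv (H →ₐ[GaloisRep.ratLocalizedAt p] Qb)),
      (∀ h : H, g h = σ.1 (f h)) → e g = σ • e f) :
    FlatLoc A W := by
  refine ⟨{ carrier := carrier H e A, int := ?_, equiv := ?_, const := ?_, fg := ?_, sep := ?_,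
            comul := ?_ }⟩
  · -- int
    intro f hf
    refine carrier_induction H e (P := fun f => ∀ w, f w ∈ A) ?_ ?_ ?_ ?_ hf
    · intro h w
      exact algHom_apply_mem H hp hA (e.symm w).ofConv h
    · intro w
      exact A.zero_mem
    · intro f g _ _ hf hg w
      exact A.add_mem _ _ (hf w) (hg w)
    · intro a f ha _ hf w
      exact A.mul_mem _ _ ha.2 (hf w)
  · -- equiv
    intro f hf
    refine carrier_induction H e
      (P := fun f => ∀ (σ : ↥(Iner A)) (w : W), f (σ • w) = σ.1 (f w)) ?_ ?_ ?_ ?_ hf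
    · intro h σ w
      let g : WithConv (H →ₐ[GaloisRep.ratLocalizedAt p] Qb) :=
        WithConv.toConv (((σ.1 : Qb ≃ₐ[ℚ] Qb).toAlgHom.restrictScalars
          (GaloisRep.ratLocalizedAt p)).comp (e.symm w).ofConv)
      have hg : e g = σ • e (e.symm w) := he_gal σ (e.symm w) g (fun h => rfl)
      rw [e.apply_symm_apply] at hg
      rw [← hg, hat_apply, e.symm_apply_apply]
      rfl
    · intro σ w
      simp
    · intro f g _ _ hf hg σ w
      simp [hf σ w, hg σ w]
    · intro a f ha _ hf σ w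
      have : σ.1 a = a := (mem_K0_iff A a).1 ha.1 σ.1 σ.2
      simp [hf σ w, this]
  · -- const
    intro a ha
    have := smul_mem_carrier H e ha (hat_mem_carrier (A := A) H e 1)
    simpa using this
  · -- fg
    obtain ⟨n, s, hs⟩ := Module.Finite.exists_fin (R := GaloisRep.ratLocalizedAt p) (M := H)
    refine ⟨n, fun i => hat H e (s i), fun i => hat_mem_carrier H e _, fun f hf => ?_⟩
    refine carrier_induction H e (P := fun f => ∃ a : Fin n → Qb, (∀ i, InA0 A (a i)) ∧
      ∀ w, f w = ∑ i, a i * hat H e (s i) w) ?_ ?_ ?_ ?_ hf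
    · intro h
      have hh : h ∈ Submodule.span (GaloisRep.ratLocalizedAt p) (Set.range s) := by
        rw [hs]; trivial
      obtain ⟨c, rfl⟩ := (Submodule.mem_span_range_iff_exists_fun _).1 hh
      refine ⟨fun i => algebraMap (GaloisRep.ratLocalizedAt p) Qb (c i),
        fun i => algebraMap_ratLocalizedAt_inA0 hp hA _, fun w => ?_⟩
      simp only [hat_apply, map_sum, Algebra.smul_def, map_mul, AlgHom.commutes]
    · exact ⟨fun _ => 0, fun _ => (S0 A).zero_mem, fun w => by simp⟩
    · rintro f g _ _ ⟨a, ha, hf⟩ ⟨b, hb, hg⟩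
      refine ⟨fun i => a i + b i, fun i => (S0 A).add_mem (ha i) (hb i), fun w => ?_⟩
      simp only [Pi.add_apply, hf w, hg w, add_mul, Finset.sum_add_distrib]
    · rintro c f hc _ ⟨a, ha, hf⟩
      refine ⟨fun i => c * a i, fun i => (S0 A).mul_mem hc (ha i), fun w => ?_⟩
      simp only [hf w, Finset.mul_sum, mul_assoc]
  · -- sep
    intro w w' h
    apply e.symm.injective
    apply WithConv.ext
    apply AlgHom.ext
    intro x
    exact h _ (hat_mem_carrier H e x)
  · -- comul
    intro f hf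
    apply exists_fin_of_fintype (C := (carrier H e A : Set (W → Qb)))
      (G := fun w w' => f (w + w'))
    refine carrier_induction H e (P := fun f => ∃ (ι : Type) (_ : Fintype ι) (g h : ι → W → Qb),
      (∀ i, g i ∈ (carrier H e A : Set (W → Qb))) ∧ (∀ i, h i ∈ (carrier H e A : Set (W → Qb))) ∧
      ∀ w w', f (w + w') = ∑ i, g i w * h i w') ?_ ?_ ?_ ?_ hf
    · intro h
      obtain ⟨n, x, y, hxy⟩ := conv_apply_eq_sum (p := p) H h
      refine ⟨Fin n, inferInstance, fun i => hat H e (x i), fun i => hat H e (y i),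
        fun i => hat_mem_carrier H e _, fun i => hat_mem_carrier H e _, fun w w' => ?_⟩
      have h1 : e.symm (w + w') = e.symm w * e.symm w' := by
        apply e.injective
        rw [he_add, e.apply_symm_apply, e.apply_symm_apply, e.apply_symm_apply]
      rw [hat_apply, h1, hxy]
      rfl
    · exact ⟨Empty, inferInstance, fun i => i.elim, fun i => i.elim, fun i => i.elim,
        fun i => i.elim, fun w w' => by simp⟩
    · rintro f g _ _ ⟨ι, _, g₁, h₁, hg₁, hh₁, hf⟩ ⟨κ, _, g₂, h₂, hg₂, hh₂, hg⟩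
      refine ⟨ι ⊕ κ, inferInstance, Sum.elim g₁ g₂, Sum.elim h₁ h₂, ?_, ?_, fun w w' => ?_⟩
      · rintro (i | i)
        · exact hg₁ i
        · exact hg₂ i
      · rintro (i | i)
        · exact hh₁ i
        · exact hh₂ i
      · simp only [Pi.add_apply, hf, hg, Fintype.sum_sum_type, Sum.elim_inl, Sum.elim_inr]
    · rintro c f hc _ ⟨ι, _, g₁, h₁, hg₁, hh₁, hf⟩
      refine ⟨ι, inferInstance, fun i w => c * g₁ i w, h₁,
        fun i => smul_mem_carrier H e hc (hg₁ i), hh₁, fun w w' => ?_⟩
      simp only [hf, Finset.mul_sum, mul_assoc]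

end Fermat.Agent.S56.Flat
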