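/-
S56 / FLAT / FM-B5 (architect helper116): every `I`-equivariant function becomes an element of the
order after multiplication by a power of `p`.
-/
import Fermat.Agent.S56.Flat.Mod.Basic
import Fermat.Agent.S56.Flat.Mod.Basis1
import Fermat.Agent.S56.Flat.Mod.Basis2
import Fermat.Agent.S56.Flat.Mod.Basis3

set_option autoImplicit false

namespace Fermat.Agent.S56.Flat

open Fermat.Agent.Lib.InertiaField

variable {A : ValuationSubring Qb} {p : ℕ}
variable {W : Type} [AddCommGroup W] [DistribMulAction ↥(Iner A) W]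

/-- an element of the inertia field becomes integral after multiplication by a power of `p` -/
theorem Lattice_exists_pow_mul (hp : p.Prime) (hA : A.LiesOverPrime p) {x : Qb} (hx : x ∈ K0 A) :
    ∃ N₀ : ℕ, ∀ N : ℕ, N₀ ≤ N → InA0 A ((p : Qb) ^ N * x) := by
  have hp0 : (p : Qb) ≠ 0 := by exact_mod_cast hp.ne_zero
  by_cases hx0 : x = 0
  · refine ⟨0, fun N _ => ?_⟩
    rw [hx0, mul_zero]
    exact ⟨zero_mem _, zero_mem _⟩
  · obtain ⟨k, u, hu0, huA, -, rfl⟩ := exists_zpow_mul_unit A p hp hA hx hx0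
    refine ⟨(-k).toNat, fun N hN => ?_⟩
    have hk : 0 ≤ (N : ℤ) + k := by
      have := Int.self_le_toNat (-k)
      omega
    obtain ⟨m, hm⟩ := Int.eq_ofNat_of_zero_le hk
    have e : (p : Qb) ^ N * ((p : Qb) ^ k * u) = (p : Qb) ^ m * u := by
      rw [← mul_assoc, ← zpow_natCast, ← zpow_add₀ hp0, hm, zpow_natCast]
    rw [e]
    exact ⟨mul_mem (pow_mem (natCast_mem _ p) m) hu0, mul_mem (pow_mem (natCast_mem _ p) m) huA⟩

/-- B5 (lattice) -/
theorem Model.exists_pow_smul_mem (hp : p.Prime) (hA : A.LiesOverPrime p) [Finite W]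
    (M : Model A W) (G : W → Qb) (hG : ∀ (σ : ↥(Iner A)) (w : W), G (σ • w) = σ.1 (G w)) :
    ∃ N : ℕ, (fun w => (p : Qb) ^ N * G w) ∈ M.carrier := by
  obtain ⟨n, F, hF⟩ := M.exists_isBasis hp hA
  obtain ⟨l, hl⟩ := hF.span_Qb G
  have hlK : ∀ i, l i ∈ K0 A := by
    intro i
    rw [mem_K0_iff]
    intro τ hτ
    let σ : ↥(Iner A) := ⟨τ, hτ⟩
    have h0 : ∀ w, ∑ j, (τ (l j) - l j) * F j w = 0 := by
      intro w
      have h1 : G w = ∑ j, τ (l j) * F j w := by
        have h2 : G w = τ (G (σ⁻¹ • w)) := by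
          rw [← hG σ (σ⁻¹ • w), smul_inv_smul]
        rw [h2, hl, map_sum]
        refine Finset.sum_congr rfl fun j _ => ?_
        rw [map_mul]
        congr 1
        have h3 := M.equiv (F j) (hF.mem j) σ (σ⁻¹ • w)
        rw [smul_inv_smul] at h3
        exact h3.symm
      simp only [sub_mul, Finset.sum_sub_distrib]
      rw [← h1, ← hl, sub_self]
    exact sub_eq_zero.1 (hF.indep_Qb _ h0 i)
  choose N₀ hN₀ using fun i => Lattice_exists_pow_mul hp hA (hlK i)
  refine ⟨Finset.univ.sup N₀, ?_⟩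
  have e : (fun w => (p : Qb) ^ (Finset.univ.sup N₀) * G w) =
      fun w => ∑ i, ((p : Qb) ^ (Finset.univ.sup N₀) * l i) * F i w := by
    funext w
    rw [hl, Finset.mul_sum]
    exact Finset.sum_congr rfl fun i _ => (mul_assoc _ _ _).symm
  rw [e]
  exact M.sum_smul_mem (fun i => hN₀ i _ (Finset.le_sup (Finset.mem_univ i))) hF.mem

end Fermat.Agent.S56.Flat
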